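import Fermat.Agent.TorP4.Model

/-!
# Counting torsion classes: from `ℂ` to arbitrary algebraically closed fields
-/

set_option autoImplicit false
set_option linter.unusedSectionVars false
set_option linter.style.haveILetI false

noncomputable section

namespace Fermat.Agent.TorP4

open AlgebraicCurve Fermat.Agent.Curves Fermat.Agent.PicFlat ModularCurve
open scoped IntermediateField Polynomial

section Up

variable {k L E : Type*} [Field k] [Field L] [Algebra k L] [Field E] [Algebra k E]
  (w : E →+* LaurentSeries k) (wc : ∀ a : k, w (algebraMap k E a) = HahnSeries.single 0 a)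

/-- the function field over the bigger field of constants -/
def upField (L : Type*) [Field L] [Algebra k L] (w : E →+* LaurentSeries k) :
    IntermediateField L (LaurentSeries L) :=
  IntermediateField.adjoin L (Set.range fun e => coeffMap (algebraMap k L) (w e))

/-- extension of constants to a bigger field -/
def upCE : CE k L E (upField L w) where
  ι := ((coeffMap (algebraMap k L)).comp w).codRestrict (upField L w).toSubfield.toSubring
    (fun e => IntermediateField.subset_adjoin _ _ ⟨e, rfl⟩)
  w := w
  u := (upField L w).val.toRingHom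
  wc := wc
  uc := fun a => by
    change algebraMap L (LaurentSeries L) a = _
    exact algebraMap_laurentSeries_eq_single L a
  comm := fun e => rfl
  gen := by
    apply IntermediateField.map_injective (upField L w).val
    rw [IntermediateField.adjoin_map]
    ext x
    constructor
    · intro hx
      have h1 : x ∈ upField L w := by
        refine (IntermediateField.adjoin_le_iff.mpr ?_) hx
        rintro _ ⟨y, -, rfl⟩
        exact y.2
      exact ⟨⟨x, h1⟩, trivial, rfl⟩
    · rintro ⟨y, -, rfl⟩
      refine IntermediateField.adjoin.mono _ _ _ ?_ y.2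
      rintro _ ⟨e, rfl⟩
      exact ⟨_, ⟨e, rfl⟩, rfl⟩

end Up

/-- the torus theorem over `ℂ` -/
def TorusSt : Prop := ∀ (F : Type) [Field F] [Algebra ℂ F] [IsFunctionField ℂ F] (g c : ℤ),
  RR ℂ F g c → ∀ n : ℕ, 1 ≤ n → Nat.card {x : Pic0 ℂ F // n • x = 0} = n ^ (2 * g).toNat

/-- small subfields -/
def SmallSt (K : Type*) [Field K] : Prop := ∀ A : Set K, A.Countable → ∃ k : Subfield K, A ⊆ k ∧
      IsAlgClosed k ∧ Nonempty (k →+* ℂ)

variable {K F : Type*} [Field K] [Field F] [Algebra K F] [IsAlgClosed K] [CharZero K]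
  [IsFunctionField K F]

/-- the count over small fields -/
theorem card_model (hC : TorusSt) {k : Type*} [Field k] [Algebra k K] [IsAlgClosed k]
    (hk : Nonempty (k →+* ℂ)) {E : Type*} [Field E] [Algebra k E] [IsFunctionField k E]
    (C : CE k K E F) {g c : ℤ} (hRR : RR K F g c) {n : ℕ} (hn : 1 ≤ n) :
    Nat.card {x : Pic0 k E // n • x = 0} = n ^ (2 * g).toNat := by
  obtain ⟨φ⟩ := hk
  letI : Algebra k ℂ := φ.toAlgebra
  haveI : CharZero k := φ.charZero
  let C' : CE k ℂ E (upField ℂ C.w) := upCE C.w C.wc
  haveI : IsFunctionField ℂ (upField ℂ C.w) := C'.isFunctionField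
  obtain ⟨g', c', hRR'⟩ := exists_RR (k := k) (F := E)
  obtain ⟨g'', c'', hRR''⟩ := exists_RR (k := ℂ) (F := upField ℂ C.w)
  have h1 : g = g' := C.rr_Con hRR' hRR
  have h2 : g'' = g' := C'.rr_Con hRR' hRR''
  have h3 := hC (upField ℂ C.w) g'' c'' hRR'' n hn
  have hpos : 0 < n ^ (2 * g'').toNat := Nat.pow_pos hn
  have hfin : Finite {x : Pic0 ℂ (upField ℂ C.w) // n • x = 0} :=
    Nat.finite_of_card_ne_zero (by omega)
  have hfin' : {x : Pic0 ℂ (upField ℂ C.w) | n • x = 0}.Finite := Set.finite_coe_iff.mp hfin
  rw [C'.card_torsion_eq hfin', h3, h1, h2]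

/-- **the torsion of the divisor class group** -/
theorem card_torsion_of (hC : TorusSt) (hK : SmallSt K) {g c : ℤ} (hRR : RR K F g c) {n : ℕ}
    (hn : 1 ≤ n) : Nat.card {x : Pic0 K F // n • x = 0} = n ^ (2 * g).toNat := by
  classical
  have hpos : 0 < n ^ (2 * g).toNat := Nat.pow_pos hn
  -- upper bound
  have hub : ∀ S : Finset (Pic0 K F), (∀ x ∈ S, n • x = 0) → S.card ≤ n ^ (2 * g).toNat := by
    intro S hS
    choose D hD using fun x : Pic0 K F => Pic0.mk_surjective x
    obtain ⟨k, E, C, hk, hkC, hE, hT⟩ := exists_model hK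
      (S.biUnion fun x => (D x : Divisor K F).support)
    haveI := hk
    haveI := hE
    haveI : CharZero k := hkC.some.charZero
    have h1 := card_model hC hkC C hRR hn
    haveI hfin : Finite {x : Pic0 k E // n • x = 0} :=
      Nat.finite_of_card_ne_zero (by omega)
    rw [← h1]
    refine C.card_torsion_le (Set.finite_coe_iff.mp hfin : {x : Pic0 k E | n • x = 0}.Finite)
      S hS ?_
    intro x hx
    refine ⟨D x, hD x, fun P hP => C.mem_range_con (hT P ?_)⟩
    rw [Finset.mem_biUnion]
    exact ⟨x, hx, Finsupp.mem_support_iff.mpr hP⟩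
  have hfin : {x : Pic0 K F | n • x = 0}.Finite := by
    by_contra hinf
    obtain ⟨S, hS, hcard⟩ := Set.Infinite.exists_subset_card_eq hinf (n ^ (2 * g).toNat + 1)
    have := hub S (fun x hx => hS hx)
    omega
  haveI : Finite {x : Pic0 K F // n • x = 0} := hfin.to_subtype
  apply le_antisymm
  · have h1 := hub hfin.toFinset (fun x hx => by
      rw [Set.Finite.mem_toFinset] at hx; exact hx)
    have h2 : Nat.card {x : Pic0 K F // n • x = 0} = hfin.toFinset.card := by
      change Nat.card ↥{x : Pic0 K F | n • x = 0} = _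
      rw [Nat.card_coe_set_eq, Set.ncard_eq_toFinset_card _ hfin]
    rw [h2]
    exact h1
  · obtain ⟨k, E, C, hk, hkC, hE, -⟩ := exists_model (F := F) hK ∅
    haveI := hk
    haveI := hE
    haveI : CharZero k := hkC.some.charZero
    rw [← card_model hC hkC C hRR hn]
    refine Nat.card_le_card_of_injective (fun x => ⟨C.conP x, by
      rw [← map_nsmul, x.2, map_zero]⟩) ?_
    intro x y h
    exact Subtype.ext (C.conP_injective (congrArg Subtype.val h))

end Fermat.Agent.TorP4
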