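import Mathlib

/-!
# Countable algebraically closed subfields and embeddings in the complex numbers
-/

set_option autoImplicit false

noncomputable section

namespace Fermat.Agent.TorP4

open Cardinal

/-- countable fields of characteristic zero embed in the complex numbers -/
theorem exists_embedding (k : Type*) [Field k] [CharZero k] [hk : Countable k] :
    Nonempty (k →+* ℂ) := by
  obtain ⟨s, hs⟩ := exists_isTranscendenceBasis ℚ k
  obtain ⟨T, hT⟩ := exists_isTranscendenceBasis ℚ ℂ
  have hcard : #ℂ = #T := by
    refine IsAlgClosed.cardinal_eq_cardinal_transcendence_basis_of_aleph0_lt' _ hT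
      (by simp) ?_
    rw [Cardinal.mk_complex]
    exact Cardinal.aleph0_lt_continuum
  obtain ⟨f⟩ : Nonempty (s ↪ T) := by
    rw [← Cardinal.lift_mk_le']
    calc Cardinal.lift #s ≤ ℵ₀ := by
          rw [Cardinal.lift_le_aleph0]
          exact Cardinal.mk_le_aleph0
      _ ≤ Cardinal.lift #T := by
          rw [Cardinal.aleph0_le_lift, ← hcard, Cardinal.mk_complex]
          exact Cardinal.aleph0_le_continuum
  have hx : AlgebraicIndependent ℚ fun i : s => ((f i : T) : ℂ) :=
    hT.1.comp f f.injective
  have hS : AlgebraicIndependent ℚ ((↑) : s → k) := hs.1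
  let e : Algebra.adjoin ℚ (Set.range ((↑) : s → k)) →ₐ[ℚ] ℂ :=
    ((Algebra.adjoin ℚ (Set.range fun i : s => ((f i : T) : ℂ))).val).comp
      (hS.aevalEquiv.symm.trans hx.aevalEquiv : _ →ₐ[ℚ] _)
  have he : Function.Injective e :=
    Subtype.val_injective.comp (hS.aevalEquiv.symm.trans hx.aevalEquiv).injective
  letI : Algebra (Algebra.adjoin ℚ (Set.range ((↑) : s → k))) ℂ := e.toRingHom.toAlgebra
  haveI : FaithfulSMul (Algebra.adjoin ℚ (Set.range ((↑) : s → k))) ℂ :=
    (faithfulSMul_iff_algebraMap_injective _ _).2 he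
  haveI : Algebra.IsAlgebraic (Algebra.adjoin ℚ (Set.range ((↑) : s → k))) k := hs.isAlgebraic
  exact ⟨(IsAlgClosed.lift (R := Algebra.adjoin ℚ (Set.range ((↑) : s → k))) (S := k)
    (M := ℂ)).toRingHom⟩

/-- **small algebraically closed subfields** -/
theorem exists_small (K : Type*) [Field K] [CharZero K] [IsAlgClosed K] (A : Set K)
    (hA : A.Countable) : ∃ k : Subfield K, A ⊆ k ∧ IsAlgClosed k ∧ Nonempty (k →+* ℂ) := by
  haveI := hA.to_subtype
  haveI : Countable (Subfield.closure A) := by
    rw [← Cardinal.mk_le_aleph0_iff]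
    exact (Subfield.cardinalMk_closure_le_max A).trans
      (max_le (Cardinal.mk_le_aleph0_iff.2 inferInstance) le_rfl)
  let kk : IntermediateField (Subfield.closure A) K := algebraicClosure (Subfield.closure A) K
  haveI h1 : IsAlgClosure (Subfield.closure A) kk :=
    algebraicClosure.isAlgClosure (Subfield.closure A) K
  haveI h2 : IsAlgClosed kk := IsAlgClosure.isAlgClosed (Subfield.closure A)
  haveI h3 : Countable kk := by
    rw [← Cardinal.mk_le_aleph0_iff]
    exact (Algebra.IsAlgebraic.cardinalMk_le_max (Subfield.closure A) kk).trans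
      (max_le (Cardinal.mk_le_aleph0_iff.2 inferInstance) le_rfl)
  refine ⟨kk.toSubfield, fun a ha => ?_, h2, ?_⟩
  · exact kk.algebraMap_mem (⟨a, Subfield.subset_closure ha⟩ : Subfield.closure A)
  · haveI : CharZero kk.toSubfield := inferInstance
    haveI : Countable kk.toSubfield := h3
    exact exists_embedding kk.toSubfield

end Fermat.Agent.TorP4
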