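import Mathlib

/-!
# Automorphisms of an algebraically closed field over an algebraically closed subfield
-/

set_option autoImplicit false
set_option linter.unusedSectionVars false
set_option linter.style.haveILetI false

noncomputable section

namespace Fermat.Agent.TorP4

open MvPolynomial

variable {k K : Type*} [Field k] [Field K] [Algebra k K]

/-- automorphisms from transcendence bases -/
theorem exists_aut_of_basis [IsAlgClosed K] {ι : Type*} {v w : ι → K}
    (hv : IsTranscendenceBasis k v) (hw : IsTranscendenceBasis k w) :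
    ∃ σ : K ≃ₐ[k] K, ∀ i, σ (v i) = w i := by
  letI := IsAlgClosed.isAlgClosure_of_transcendence_basis v hv
  letI := IsAlgClosed.isAlgClosure_of_transcendence_basis w hw
  set e : Algebra.adjoin k (Set.range v) ≃ₐ[k] Algebra.adjoin k (Set.range w) :=
    hv.1.aevalEquiv.symm.trans hw.1.aevalEquiv with he
  have hei : ∀ i, (e ⟨v i, Algebra.subset_adjoin ⟨i, rfl⟩⟩ : K) = w i := by
    intro i
    have h1 : (⟨v i, Algebra.subset_adjoin ⟨i, rfl⟩⟩ : Algebra.adjoin k (Set.range v)) =
        hv.1.aevalEquiv (X i) := by
      apply Subtype.ext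
      rw [AlgebraicIndependent.aevalEquiv_apply_coe]
      simp
    rw [h1, he, AlgEquiv.trans_apply, AlgEquiv.symm_apply_apply,
      AlgebraicIndependent.aevalEquiv_apply_coe]
    simp
  set σ : K ≃+* K := IsAlgClosure.equivOfEquiv K K e.toRingEquiv with hσ
  have hσe : ∀ x : Algebra.adjoin k (Set.range v), σ (x : K) = (e x : K) := by
    intro x
    exact IsAlgClosure.equivOfEquiv_algebraMap K K e.toRingEquiv x
  refine ⟨AlgEquiv.ofRingEquiv (f := σ) fun c => ?_, fun i => ?_⟩
  · have h1 := hσe (algebraMap k _ c)
    rw [AlgEquiv.commutes] at h1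
    exact h1
  · have h1 := hσe ⟨v i, Algebra.subset_adjoin ⟨i, rfl⟩⟩
    rw [hei] at h1
    exact h1

theorem isTranscendenceBasis_update {ι : Type*} {v : ι → K}
    (hv : IsTranscendenceBasis k v) (i₀ : ι) (t : k) [DecidableEq ι] :
    IsTranscendenceBasis k (Function.update v i₀ (v i₀ + algebraMap k K t)) := by
  set w := Function.update v i₀ (v i₀ + algebraMap k K t) with hw
  let θ : ∀ c : k, MvPolynomial ι k →ₐ[k] MvPolynomial ι k := fun c =>
    aeval (fun i => if i = i₀ then X i + C c else X i)
  have hθθ : ∀ c, (θ (-c)).comp (θ c) = AlgHom.id k _ := by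
    intro c
    apply MvPolynomial.algHom_ext
    intro i
    simp only [θ, AlgHom.comp_apply, aeval_X, AlgHom.id_apply]
    split_ifs with h
    · subst h
      rw [map_add, aeval_X, if_pos rfl]
      simp
    · rw [aeval_X, if_neg h]
  have hinj : Function.Injective (θ t) := by
    intro p q hpq
    have h1 := DFunLike.congr_fun (hθθ t) p
    have h2 := DFunLike.congr_fun (hθθ t) q
    simp only [AlgHom.comp_apply, AlgHom.id_apply] at h1 h2
    rw [← h1, ← h2, hpq]
  have hcomp : (aeval w : MvPolynomial ι k →ₐ[k] K) = (aeval v).comp (θ t) := by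
    apply MvPolynomial.algHom_ext
    intro i
    simp only [AlgHom.comp_apply, aeval_X, θ]
    split_ifs with h
    · subst h
      rw [map_add, aeval_X, aeval_C, hw, Function.update_self]
    · rw [aeval_X, hw, Function.update_of_ne h]
  have hind : AlgebraicIndependent k w := by
    unfold AlgebraicIndependent
    rw [hcomp]
    have h1 : Function.Injective (aeval v : MvPolynomial ι k →ₐ[k] K) := hv.1
    exact h1.comp hinj
  have hadj : Algebra.adjoin k (Set.range w) = Algebra.adjoin k (Set.range v) := by
    apply le_antisymm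
    · rw [Algebra.adjoin_le_iff]
      rintro _ ⟨i, rfl⟩
      by_cases h : i = i₀
      · subst h
        rw [hw, Function.update_self]
        exact add_mem (Algebra.subset_adjoin ⟨i, rfl⟩) (Subalgebra.algebraMap_mem _ _)
      · rw [hw, Function.update_of_ne h]
        exact Algebra.subset_adjoin ⟨i, rfl⟩
    · rw [Algebra.adjoin_le_iff]
      rintro _ ⟨i, rfl⟩
      by_cases h : i = i₀
      · subst h
        have h1 : v i = w i - algebraMap k K t := by
          rw [hw, Function.update_self]; ring
        rw [h1]
        exact sub_mem (Algebra.subset_adjoin ⟨i, rfl⟩) (Subalgebra.algebraMap_mem _ _)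
      · have h1 : v i = w i := by rw [hw, Function.update_of_ne h]
        rw [h1]
        exact Algebra.subset_adjoin ⟨i, rfl⟩
  rw [isTranscendenceBasis_iff_algebraicIndependent_isAlgebraic]
  refine ⟨hind, ?_⟩
  rw [hadj]
  exact hv.isAlgebraic

theorem mem_range_of_isAlgebraic [IsAlgClosed k] {a : K} (h : IsAlgebraic k a) :
    a ∈ Set.range (algebraMap k K) :=
  minpoly.mem_range_of_degree_eq_one k a
    (IsAlgClosed.degree_eq_one_of_irreducible k (minpoly.irreducible h.isIntegral))

/-- enough automorphisms -/
theorem exists_aut [IsAlgClosed k] [IsAlgClosed K] {a : K}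
    (ha : a ∉ Set.range (algebraMap k K)) (t : k) :
    ∃ σ : K ≃ₐ[k] K, σ a = a + algebraMap k K t := by
  classical
  have htr : Transcendental k a := fun h => ha (mem_range_of_isAlgebraic h)
  have hind : AlgebraicIndepOn k id ({a} : Set K) :=
    (algebraicIndependent_singleton_iff (⟨a, rfl⟩ : ({a} : Set K))).mpr htr
  obtain ⟨s, has, hs⟩ := exists_isTranscendenceBasis_superset hind
  have ha' : a ∈ s := has rfl
  obtain ⟨σ, hσ⟩ := exists_aut_of_basis hs (isTranscendenceBasis_update hs ⟨a, ha'⟩ t)
  refine ⟨σ, ?_⟩
  have := hσ ⟨a, ha'⟩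
  rwa [Function.update_self] at this

/-- elements with a finite orbit are constants -/
theorem mem_range_of_finite_orbit [IsAlgClosed k] [IsAlgClosed K] {a : K}
    (h : (Set.range fun σ : K ≃ₐ[k] K => σ a).Finite) : a ∈ Set.range (algebraMap k K) := by
  by_contra ha
  haveI : Infinite k := IsAlgClosed.instInfinite
  apply Set.infinite_range_of_injective (f := fun t : k => a + algebraMap k K t)
    (fun t t' htt' => (algebraMap k K).injective (add_left_cancel htt'))
  refine h.subset ?_
  rintro _ ⟨t, rfl⟩
  obtain ⟨σ, hσ⟩ := exists_aut ha t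
  exact ⟨σ, hσ⟩

/-- the fixed field is `k` -/
theorem mem_range_of_fixed [IsAlgClosed k] [IsAlgClosed K] {a : K}
    (h : ∀ σ : K ≃ₐ[k] K, σ a = a) : a ∈ Set.range (algebraMap k K) := by
  refine mem_range_of_finite_orbit ((Set.finite_singleton a).subset ?_)
  rintro _ ⟨σ, rfl⟩
  exact h σ

end Fermat.Agent.TorP4
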