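import Fermat.Agent.TorP4.Ext

/-!
# The conorm of an extension of constants
-/

set_option autoImplicit false
set_option linter.unusedSectionVars false
set_option linter.style.haveILetI false

noncomputable section

namespace Fermat.Agent.TorP4

open AlgebraicCurve Fermat.Agent.Curves Fermat.Agent.PicFlat ModularCurve
open scoped IntermediateField

variable {k K E F : Type*} [Field k] [Field K] [Algebra k K] [Field E] [Algebra k E]
  [Field F] [Algebra K F]

theorem place_ext_ord {K F : Type*} [Field K] [Field F] [Algebra K F] {P Q : Place K F}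
    (h : ∀ e : F, e ≠ 0 → P.ord e = Q.ord e) : P = Q := by
  apply Place.ext
  ext x
  rcases eq_or_ne x 0 with rfl | hx
  · exact ⟨fun _ => zero_mem _, fun _ => zero_mem _⟩
  · rw [mem_iff_ord P hx, mem_iff_ord Q hx, h x hx]

theorem le_degree_one {K F : Type*} [Field K] [Field F] [Algebra K F] [IsAlgClosed K]
    [IsFunctionField K F] {D : Divisor K F} (hD : 0 ≤ D) (P : Place K F) :
    D P ≤ Divisor.degree D := by
  classical
  have h1 : 0 ≤ D - Finsupp.single P (D P) := by
    intro Q
    rw [Finsupp.sub_apply, Finsupp.coe_zero, Pi.zero_apply]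
    by_cases hQ : Q = P
    · subst hQ; rw [Finsupp.single_eq_same]; omega
    · rw [Finsupp.single_eq_of_ne hQ]
      have := hD Q
      simpa using this
  have h2 := pos_of_nonneg_degree _ h1
  rw [map_sub, degree_single_one] at h2
  omega

theorem le_degree_two {K F : Type*} [Field K] [Field F] [Algebra K F] [IsAlgClosed K]
    [IsFunctionField K F] {D : Divisor K F} (hD : 0 ≤ D) {P P' : Place K F} (hPP : P' ≠ P) :
    D P + D P' ≤ Divisor.degree D := by
  classical
  have h1 : 0 ≤ D - Finsupp.single P (D P) - Finsupp.single P' (D P') := by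
    intro Q
    rw [Finsupp.sub_apply, Finsupp.sub_apply, Finsupp.coe_zero, Pi.zero_apply]
    have h0 : (0 : ℤ) ≤ D Q := hD Q
    by_cases hQ : Q = P
    · subst hQ
      rw [Finsupp.single_eq_same, Finsupp.single_eq_of_ne (Ne.symm hPP)]
      omega
    · by_cases hQ' : Q = P'
      · subst hQ'
        rw [Finsupp.single_eq_same, Finsupp.single_eq_of_ne hPP]
        omega
      · rw [Finsupp.single_eq_of_ne hQ, Finsupp.single_eq_of_ne hQ']
        omega
  have h2 := pos_of_nonneg_degree _ h1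
  rw [map_sub, map_sub, degree_single_one, degree_single_one] at h2
  omega

namespace CE

variable (C : CE k K E F)

/-- restriction of a place -/
theorem exists_restr (P : Place K F) (h : ∃ e : E, e ≠ 0 ∧ P.ord (C.ι e) ≠ 0) :
    ∃ (P₂ : Place k E) (d : ℤ), 0 < d ∧ ∀ e : E, e ≠ 0 → P.ord (C.ι e) = d * P₂.ord e := by
  have hne : ∀ {e : E}, e ≠ 0 → C.ι e ≠ 0 := fun he => (map_ne_zero_iff _ C.ι.injective).mpr he
  let H : AddSubgroup ℤ :=
    { carrier := {n | ∃ e : E, e ≠ 0 ∧ P.ord (C.ι e) = n}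
      zero_mem' := ⟨1, one_ne_zero, by rw [map_one, P.ord_one]⟩
      add_mem' := by
        rintro _ _ ⟨e, he, rfl⟩ ⟨e', he', rfl⟩
        exact ⟨e * e', mul_ne_zero he he', by rw [map_mul, P.ord_mul (hne he) (hne he')]⟩
      neg_mem' := by
        rintro _ ⟨e, he, rfl⟩
        exact ⟨e⁻¹, inv_ne_zero he, by rw [map_inv₀, P.ord_inv]⟩ }
  obtain ⟨a, ha⟩ := Int.subgroup_cyclic H
  rw [← AddSubgroup.zmultiples_eq_closure] at ha
  have hmemH : ∀ {n : ℤ}, n ∈ H ↔ ∃ e : E, e ≠ 0 ∧ P.ord (C.ι e) = n := Iff.rfl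
  have ha0 : a ≠ 0 := by
    rintro rfl
    obtain ⟨e, he, he'⟩ := h
    apply he'
    have h1 : P.ord (C.ι e) ∈ H := ⟨e, he, rfl⟩
    rw [ha, AddSubgroup.zmultiples_zero_eq_bot, AddSubgroup.mem_bot] at h1
    exact h1
  set d : ℤ := |a| with hd
  have hd0 : 0 < d := abs_pos.mpr ha0
  have hdvd : ∀ e : E, e ≠ 0 → d ∣ P.ord (C.ι e) := by
    intro e he
    have h1 : P.ord (C.ι e) ∈ H := ⟨e, he, rfl⟩
    rw [ha, AddSubgroup.mem_zmultiples_iff] at h1
    obtain ⟨n, hn⟩ := h1
    rw [hd, abs_dvd, ← hn, smul_eq_mul]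
    exact Dvd.intro_left n rfl
  have hdH : d ∈ H := by
    rw [ha, AddSubgroup.mem_zmultiples_iff]
    rcases abs_choice a with h1 | h1
    · exact ⟨1, by rw [hd, h1, one_smul]⟩
    · exact ⟨-1, by rw [hd, h1, neg_smul, one_smul]⟩
  obtain ⟨t, ht0, ht⟩ := hmemH.mp hdH
  obtain ⟨P₂, hP₂⟩ := exists_place_of_ord (k := k) (F := E) (fun e => P.ord (C.ι e) / d)
    (fun x y hx hy => by
      rw [map_mul, P.ord_mul (hne hx) (hne hy), Int.add_ediv_of_dvd_left (hdvd x hx)])
    (fun x y hx hy hxy => by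
      rw [map_add]
      have h1 := ord_add P (by rw [← map_add]; exact hne hxy) (hne hx) (hne hy)
      rcases le_total (P.ord (C.ι x)) (P.ord (C.ι y)) with h2 | h2
      · rw [min_eq_left h2] at h1
        exact (min_le_left _ _).trans (Int.ediv_le_ediv hd0 h1)
      · rw [min_eq_right h2] at h1
        exact (min_le_right _ _).trans (Int.ediv_le_ediv hd0 h1))
    (fun a _ => by
      rw [C.ι_const, ord_algebraMap, Int.zero_ediv])
    ⟨t, ht0, by rw [ht, Int.ediv_self hd0.ne']⟩
  refine ⟨P₂, d, hd0, fun e he => ?_⟩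
  rw [hP₂ e he]
  exact (Int.mul_ediv_cancel' (hdvd e he)).symm

variable [IsAlgClosed k] [IsAlgClosed K] [CharZero k] [IsFunctionField k E] [IsFunctionField K F]

theorem exists_con (P₂ : Place k E) : ∃ P : Place K F,
    (∀ e : E, e ≠ 0 → P.ord (C.ι e) = P₂.ord e) ∧
    ∀ (P' : Place K F) (d : ℤ), 0 < d → (∀ e : E, e ≠ 0 → P'.ord (C.ι e) = d * P₂.ord e) →
      P' = P := by
  classical
  obtain ⟨g, c, hRR⟩ := exists_RR (k := k) (F := E)
  obtain ⟨m, hm, hmc⟩ : ∃ m : ℤ, 0 < m ∧ c + 1 ≤ m := ⟨max 1 (c + 1), by omega, by omega⟩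
  obtain ⟨f, hf, hf0, hfP⟩ := hRR.bpf (D := Finsupp.single P₂ m)
    (by rw [degree_single_one]; exact hmc) P₂
  rw [Finsupp.single_eq_same] at hfP
  have hfm := (mem_iff_of_ne hf0).mp hf
  have htr : Transcendental k f := by
    rcases transcendental_or (k := k) f with h | ⟨a, ha⟩
    · exact h
    · exfalso
      rw [ha, ord_algebraMap] at hfP
      omega
  have hpd : poleDivisor (k := k) f = Finsupp.single P₂ m := by
    ext Q
    rw [poleDivisor_apply]
    have h1 := hfm Q
    by_cases hQ : Q = P₂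
    · subst hQ
      rw [Finsupp.single_eq_same, hfP]
      omega
    · rw [Finsupp.single_eq_of_ne hQ] at h1 ⊢
      omega
  haveI := finiteDimensional_adjoin_simple (k := k) htr
  have hdeg : (Module.finrank k⟮f⟯ E : ℤ) = m := by
    rw [← degree_poleDivisor htr, hpd, degree_single_one]
  obtain ⟨hfin, hle⟩ := C.finite_and_le htr
  have htr' := C.tr htr
  have hιf0 : C.ι f ≠ 0 := (map_ne_zero_iff _ C.ι.injective).mpr hf0
  have hpdeg : Divisor.degree (poleDivisor (k := K) (C.ι f)) ≤ m := by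
    rw [degree_poleDivisor htr', ← hdeg]
    exact_mod_cast hle
  have hpnn : 0 ≤ poleDivisor (k := K) (C.ι f) := poleDivisor_nonneg _
  obtain ⟨P, hP⟩ := exists_ord_pos_of_transcendental (k := K) (x := (C.ι f)⁻¹)
    (fun h => htr' (by simpa using h.inv))
  rw [P.ord_inv] at hP
  obtain ⟨P₂', d, hd0, hd⟩ := C.exists_restr P ⟨f, hf0, by omega⟩
  have hP₂' : P₂' = P₂ := by
    by_contra hne
    have h1 := hfm P₂'
    rw [Finsupp.single_eq_of_ne hne] at h1
    have h2 := hd f hf0
    have h3 : 0 ≤ d * P₂'.ord f := mul_nonneg hd0.le (by omega)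
    omega
  subst hP₂'
  have hd1 : d = 1 := by
    have h1 := le_degree_one hpnn P
    rw [poleDivisor_apply, hd f hf0, hfP] at h1
    have h2 : d * m ≤ m := by
      have : max 0 (-(d * -m)) ≤ m := h1.trans hpdeg
      have h3 := (le_max_right 0 (-(d * -m))).trans this
      linarith [h3]
    nlinarith
  subst hd1
  refine ⟨P, fun e he => by rw [hd e he, one_mul], fun P' d' hd0' hd' => ?_⟩
  by_contra hne
  have h1 := le_degree_two hpnn (P := P) (P' := P') hne
  rw [poleDivisor_apply, poleDivisor_apply, hd f hf0, hd' f hf0, hfP] at h1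
  have h2 := le_max_right 0 (-(1 * -m))
  have h3 := le_max_right 0 (-(d' * -m))
  nlinarith

/-- the place above a place -/
def con (P₂ : Place k E) : Place K F := (C.exists_con P₂).choose

theorem ord_con (P₂ : Place k E) {e : E} (he : e ≠ 0) :
    (C.con P₂).ord (C.ι e) = P₂.ord e := (C.exists_con P₂).choose_spec.1 e he

theorem con_unique (P₂ : Place k E) {P' : Place K F} {d : ℤ} (hd : 0 < d)
    (h : ∀ e : E, e ≠ 0 → P'.ord (C.ι e) = d * P₂.ord e) : P' = C.con P₂ :=
  (C.exists_con P₂).choose_spec.2 P' d hd h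

theorem con_injective : Function.Injective C.con := by
  intro P Q h
  refine place_ext_ord fun e he => ?_
  rw [← C.ord_con P he, h, C.ord_con Q he]

theorem mem_range_con {P : Place K F} (h : ∃ e : E, e ≠ 0 ∧ P.ord (C.ι e) ≠ 0) :
    ∃ P₂, C.con P₂ = P := by
  obtain ⟨P₂, d, hd0, hd⟩ := C.exists_restr P h
  exact ⟨P₂, (C.con_unique P₂ hd0 hd).symm⟩

theorem ord_ι_of_notMem {P : Place K F} (h : P ∉ Set.range C.con) {e : E} (he : e ≠ 0) :
    P.ord (C.ι e) = 0 := by
  by_contra h1
  exact h (C.mem_range_con ⟨e, he, h1⟩)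

/-- the conorm -/
def Con : Divisor k E →+ Divisor K F := Finsupp.mapDomain.addMonoidHom C.con

theorem Con_con (D : Divisor k E) (P₂ : Place k E) : C.Con D (C.con P₂) = D P₂ :=
  Finsupp.mapDomain_apply C.con_injective D P₂

theorem Con_notMem (D : Divisor k E) {P : Place K F} (h : P ∉ Set.range C.con) :
    C.Con D P = 0 := Finsupp.mapDomain_notin_range D P h

theorem Con_single (P₂ : Place k E) (n : ℤ) :
    C.Con (Finsupp.single P₂ n) = Finsupp.single (C.con P₂) n := Finsupp.mapDomain_single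

theorem degree_Con (D : Divisor k E) : Divisor.degree (C.Con D) = Divisor.degree D := by
  induction D using Finsupp.induction_linear with
  | zero => rw [map_zero, map_zero, map_zero]
  | add D D' h h' => rw [map_add, map_add, map_add, h, h']
  | single P n => rw [C.Con_single, degree_single_one, degree_single_one]

theorem div_ι {e : E} (he : e ≠ 0) : divisorOf (k := K) (C.ι e) = C.Con (divisorOf e) := by
  ext P
  by_cases hP : P ∈ Set.range C.con
  · obtain ⟨P₂, rfl⟩ := hP
    rw [C.Con_con, divisorOf_apply, divisorOf_apply, C.ord_con P₂ he]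
  · rw [C.Con_notMem _ hP, divisorOf_apply, C.ord_ι_of_notMem hP he]

theorem Con_injective : Function.Injective C.Con :=
  Finsupp.mapDomain_injective C.con_injective

/-- divisors supported on the places of `E` -/
theorem mem_range_Con {D : Divisor K F} (h : ∀ P, D P ≠ 0 → P ∈ Set.range C.con) :
    ∃ D₂, C.Con D₂ = D := by
  classical
  refine ⟨Finsupp.comapDomain C.con D C.con_injective.injOn, ?_⟩
  exact Finsupp.mapDomain_comapDomain C.con C.con_injective D fun P hP =>
    h P (Finsupp.mem_support_iff.mp hP)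

theorem ι_mem_iff {D : Divisor k E} {e : E} :
    C.ι e ∈ riemannRochSpace (C.Con D) ↔ e ∈ riemannRochSpace D := by
  rcases eq_or_ne e 0 with rfl | he
  · rw [map_zero]; exact ⟨fun _ => zero_mem _, fun _ => zero_mem _⟩
  have hιe : C.ι e ≠ 0 := (map_ne_zero_iff _ C.ι.injective).mpr he
  rw [mem_iff_of_ne hιe, mem_iff_of_ne he]
  constructor
  · intro h P₂
    have := h (C.con P₂)
    rwa [C.Con_con, C.ord_con P₂ he] at this
  · intro h P
    by_cases hP : P ∈ Set.range C.con
    · obtain ⟨P₂, rfl⟩ := hP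
      rw [C.Con_con, C.ord_con P₂ he]
      exact h P₂
    · rw [C.Con_notMem _ hP, C.ord_ι_of_notMem hP he]; simp

end CE

end Fermat.Agent.TorP4
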