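import Fermat.Agent.TorP4.Aut
import Fermat.Agent.PicFlat.RRDim
import Fermat.Agent.Curves.Affine
import Fermat.Prelude.Def_ModularCurve_LaurentCoeff

/-!
# Extension of the field of constants, inside Laurent series
-/

set_option autoImplicit false
set_option linter.unusedSectionVars false
set_option linter.style.haveILetI false

noncomputable section

namespace Fermat.Agent.TorP4

open AlgebraicCurve Fermat.Agent.Curves Fermat.Agent.PicFlat ModularCurve
open scoped IntermediateField

/-- extension of constants, inside Laurent series -/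
structure CE (k K E F : Type*) [Field k] [Field K] [Algebra k K] [Field E] [Algebra k E]
    [Field F] [Algebra K F] where
  ι : E →+* F
  w : E →+* LaurentSeries k
  u : F →+* LaurentSeries K
  wc : ∀ a : k, w (algebraMap k E a) = HahnSeries.single 0 a
  uc : ∀ a : K, u (algebraMap K F a) = HahnSeries.single 0 a
  comm : ∀ e, u (ι e) = coeffMap (algebraMap k K) (w e)
  gen : IntermediateField.adjoin K (Set.range ι) = ⊤

variable {k K E F : Type*} [Field k] [Field K] [Algebra k K] [Field E] [Algebra k E]
  [Field F] [Algebra K F]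

theorem coeff_C_mul (a : K) (z : LaurentSeries K) (n : ℤ) :
    (HahnSeries.single (0 : ℤ) a * z).coeff n = a * z.coeff n := by
  have := HahnSeries.coeff_single_mul_add (r := a) (x := z) (a := n) (b := (0 : ℤ))
  rwa [add_zero] at this

namespace CE

variable (C : CE k K E F)

theorem ι_const (a : k) : C.ι (algebraMap k E a) = algebraMap K F (algebraMap k K a) := by
  apply C.u.injective
  rw [C.comm, C.wc, C.uc, coeffMap_single]

theorem u_mul_const (a : K) (z : F) (n : ℤ) :
    (C.u (algebraMap K F a * z)).coeff n = a * (C.u z).coeff n := by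
  rw [map_mul, C.uc, coeff_C_mul]

/-- linear disjointness -/
theorem ld_aux {J : Type*} (s : Finset J) (c : J → K) (hc : LinearIndependent k c)
    (z : J → LaurentSeries k)
    (h : ∑ j ∈ s, HahnSeries.single 0 (c j) * coeffMap (algebraMap k K) (z j) = 0) :
    ∀ j ∈ s, z j = 0 := by
  intro j hj
  ext n
  have h1 := congrArg (fun x : LaurentSeries K => x.coeff n) h
  simp only [HahnSeries.coeff_sum, coeff_C_mul, coeffMap_coeff, HahnSeries.coeff_zero] at h1
  have h2 : ∑ j ∈ s, ((z j).coeff n) • c j = 0 := by
    rw [← h1]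
    exact Finset.sum_congr rfl fun j _ => by rw [Algebra.smul_def, mul_comm]
  rw [linearIndependent_iff'] at hc
  rw [hc s _ h2 j hj, HahnSeries.coeff_zero]

theorem ld {J : Type*} (s : Finset J) (c : J → K) (hc : LinearIndependent k c) (e : J → E)
    (h : ∑ j ∈ s, algebraMap K F (c j) * C.ι (e j) = 0) : ∀ j ∈ s, e j = 0 := by
  intro j hj
  have h1 := congrArg C.u h
  rw [map_sum, map_zero] at h1
  have h2 := ld_aux s c hc (fun j => C.w (e j)) (by
    rw [← h1]
    exact Finset.sum_congr rfl fun j _ => by rw [map_mul, C.uc, C.comm]) j hj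
  rw [← map_zero C.w] at h2
  exact C.w.injective h2

theorem tr [IsAlgClosed K] {t : E} (ht : Transcendental k t) : Transcendental K (C.ι t) := by
  intro hal
  obtain ⟨a, ha⟩ := mem_range_of_isAlgebraic hal
  have h1 : coeffMap (algebraMap k K) (C.w t) = HahnSeries.single 0 a := by
    rw [← C.comm, ← ha, C.uc]
  have h2 : C.w t = HahnSeries.single 0 ((C.w t).coeff 0) := by
    ext n
    by_cases hn : n = 0
    · subst hn; rw [HahnSeries.coeff_single_same]
    · rw [HahnSeries.coeff_single_of_ne hn]
      have h3 := congrArg (fun x : LaurentSeries K => x.coeff n) h1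
      simp only [coeffMap_coeff] at h3
      rw [HahnSeries.coeff_single_of_ne hn] at h3
      exact (map_eq_zero _).mp h3
  apply ht
  rw [← C.wc] at h2
  rw [C.w.injective h2]
  exact isAlgebraic_algebraMap _

/-- preimage of an intermediate field -/
def comapF (L : IntermediateField K F) : IntermediateField k E where
  carrier := {e | C.ι e ∈ L}
  mul_mem' := fun ha hb => by
    simp only [Set.mem_ofPred_eq, map_mul] at *
    exact mul_mem ha hb
  add_mem' := fun ha hb => by
    simp only [Set.mem_ofPred_eq, map_add] at *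
    exact add_mem ha hb
  algebraMap_mem' := fun a => by
    simp only [Set.mem_ofPred_eq, C.ι_const]
    exact L.algebraMap_mem _
  inv_mem' := fun a ha => by
    simp only [Set.mem_ofPred_eq, map_inv₀] at *
    exact inv_mem ha

theorem mem_comapF {L : IntermediateField K F} {e : E} : e ∈ C.comapF L ↔ C.ι e ∈ L := Iff.rfl

theorem eq_top_of_comapF {L : IntermediateField K F} (h : C.comapF L = ⊤) : L = ⊤ := by
  rw [eq_top_iff, ← C.gen, IntermediateField.adjoin_le_iff]
  rintro _ ⟨e, rfl⟩
  have : e ∈ C.comapF L := by rw [h]; trivial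
  exact this

theorem finite_and_le [CharZero k] [IsAlgClosed K] {t : E} (ht : Transcendental k t)
    [FiniteDimensional k⟮t⟯ E] :
    FiniteDimensional K⟮C.ι t⟯ F ∧ Module.finrank K⟮C.ι t⟯ F ≤ Module.finrank k⟮t⟯ E := by
  classical
  haveI : CharZero k⟮t⟯ := charZero_of_injective_algebraMap (algebraMap k k⟮t⟯).injective
  obtain ⟨α, hα⟩ := Field.exists_primitive_element k⟮t⟯ E
  -- the map between the base fields
  have hle : k⟮t⟯ ≤ C.comapF K⟮C.ι t⟯ := by
    rw [IntermediateField.adjoin_simple_le_iff, mem_comapF]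
    exact IntermediateField.mem_adjoin_simple_self K (C.ι t)
  let j : k⟮t⟯ →+* K⟮C.ι t⟯ :=
    { toFun := fun x => ⟨C.ι x, hle x.2⟩
      map_one' := Subtype.ext (by simp)
      map_mul' := fun x y => Subtype.ext (by simp)
      map_zero' := Subtype.ext (by simp)
      map_add' := fun x y => Subtype.ext (by simp) }
  set p := minpoly k⟮t⟯ α with hp
  have hint : IsIntegral k⟮t⟯ α := Algebra.IsIntegral.isIntegral α
  have hpm : p.Monic := minpoly.monic hint
  have hcomp : (algebraMap K⟮C.ι t⟯ F).comp j = C.ι.comp (algebraMap k⟮t⟯ E) := by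
    ext x; rfl
  have hroot : Polynomial.aeval (C.ι α) (p.map j) = 0 := by
    rw [Polynomial.aeval_def, Polynomial.eval₂_map, hcomp, ← Polynomial.hom_eval₂,
      ← Polynomial.aeval_def, hp, minpoly.aeval, map_zero]
  have hint' : IsIntegral K⟮C.ι t⟯ (C.ι α) := ⟨p.map j, hpm.map j, by
    rw [← Polynomial.aeval_def]; exact hroot⟩
  have htop : K⟮C.ι t⟯⟮C.ι α⟯ = ⊤ := by
    have h1 : (K⟮C.ι t⟯⟮C.ι α⟯).restrictScalars K = ⊤ := by
      apply C.eq_top_of_comapF
      have h2 : (k⟮t⟯⟮α⟯).restrictScalars k ≤ C.comapF ((K⟮C.ι t⟯⟮C.ι α⟯).restrictScalars K) := by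
        rw [IntermediateField.adjoin_simple_adjoin_simple, IntermediateField.adjoin_le_iff]
        rintro x hx
        simp only [Set.mem_insert_iff, Set.mem_singleton_iff] at hx
        rcases hx with rfl | rfl
        · change C.ι x ∈ K⟮C.ι x⟯⟮C.ι α⟯
          exact IntermediateField.algebraMap_mem K⟮C.ι x⟯⟮C.ι α⟯
            (⟨C.ι x, IntermediateField.mem_adjoin_simple_self K (C.ι x)⟩ : K⟮C.ι x⟯)
        · change C.ι x ∈ K⟮C.ι t⟯⟮C.ι x⟯
          exact IntermediateField.mem_adjoin_simple_self _ _
      rw [hα, IntermediateField.restrictScalars_top] at h2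
      exact top_le_iff.mp h2
    rwa [IntermediateField.restrictScalars_eq_top_iff] at h1
  have hfr : Module.finrank K⟮C.ι t⟯ F = (minpoly K⟮C.ι t⟯ (C.ι α)).natDegree := by
    rw [← IntermediateField.adjoin.finrank hint', htop]
    exact IntermediateField.finrank_top'.symm
  have hdeg : (minpoly K⟮C.ι t⟯ (C.ι α)).natDegree ≤ p.natDegree := by
    have h1 : (minpoly K⟮C.ι t⟯ (C.ι α)) ∣ p.map j := minpoly.dvd _ _ hroot
    have h2 := Polynomial.natDegree_le_of_dvd h1 (hpm.map j).ne_zero
    rwa [Polynomial.natDegree_map] at h2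
  have hn : p.natDegree = Module.finrank k⟮t⟯ E := by
    rw [hp, ← IntermediateField.adjoin.finrank hint, hα]
    exact IntermediateField.finrank_top'
  constructor
  · haveI := IntermediateField.adjoin.finiteDimensional hint'
    have h3 : FiniteDimensional K⟮C.ι t⟯ (K⟮C.ι t⟯⟮C.ι α⟯) := this
    rw [htop] at h3
    exact IntermediateField.topEquiv.toLinearEquiv.finiteDimensional
  · rw [hfr, ← hn]; exact hdeg

include C in
theorem isFunctionField [CharZero k] [IsAlgClosed K] [IsFunctionField k E] :
    IsFunctionField K F := by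
  obtain ⟨t, ht, hfin⟩ := IsFunctionField.exists_transcendental (k := k) (F := E)
  exact ⟨⟨C.ι t, C.tr ht, (C.finite_and_le ht).1⟩⟩

end CE

end Fermat.Agent.TorP4
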