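import Fermat.Agent.TorP4.Conorm
import Fermat.Prelude.Def_AlgebraicCurve_BaseChangeGalois
import Fermat.Agent.GoodRed.Rigid

/-!
# Galois descent for an extension of constants
-/

set_option autoImplicit false
set_option linter.unusedSectionVars false
set_option linter.style.haveILetI false

noncomputable section

namespace Fermat.Agent.TorP4

open AlgebraicCurve Fermat.Agent.Curves Fermat.Agent.PicFlat ModularCurve Fermat.Agent.GoodRed
open scoped IntermediateField Pointwise

/-- dual coordinates on a finite dimensional subspace -/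
theorem exists_coords {K W : Type*} [Field K] [AddCommGroup W] [Module K W] {J : Type*}
    (c : J → W →ₗ[K] K) (d : ℕ) : ∀ (V : Submodule K W), Module.finrank K V = d →
    FiniteDimensional K V → (∀ v ∈ V, (∀ j, c j v = 0) → v = 0) →
    ∃ (n : ℕ) (j : Fin n → J) (v : Fin n → W), (∀ a, v a ∈ V) ∧
      (∀ a b, c (j b) (v a) = if a = b then 1 else 0) ∧
      ∀ x ∈ V, x = ∑ a, c (j a) x • v a := by
  classical
  induction d using Nat.strong_induction_on with
  | _ d ih =>
    intro V hd hfd hc
    by_cases hV : V = ⊥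
    · subst hV
      refine ⟨0, Fin.elim0, Fin.elim0, fun a => a.elim0, fun a => a.elim0, fun x hx => ?_⟩
      rw [Submodule.mem_bot] at hx
      rw [hx]
      simp
    obtain ⟨x, hxV, hx0⟩ := Submodule.exists_mem_ne_zero_of_ne_bot hV
    obtain ⟨j₀, hj₀⟩ : ∃ j, c j x ≠ 0 := by
      by_contra h
      push Not at h
      exact hx0 (hc x hxV h)
    set V' : Submodule K W := V ⊓ LinearMap.ker (c j₀) with hV'
    have hle : V' ≤ V := inf_le_left
    have hlt : V' < V := lt_of_le_of_ne hle fun h => by
      have h1 : x ∈ V' := by rw [h]; exact hxV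
      exact hj₀ h1.2
    haveI : FiniteDimensional K V' := Submodule.finiteDimensional_of_le hle
    obtain ⟨n, j, v, hvV, hδ, hrep⟩ := ih _ (by
      rw [← hd]; exact Submodule.finrank_lt_finrank_of_lt hlt) V' rfl inferInstance
      (fun v hv => hc v hv.1)
    set x₁ := (c j₀ x)⁻¹ • x with hx₁
    have hx₁c : c j₀ x₁ = 1 := by
      rw [hx₁, map_smul, smul_eq_mul, inv_mul_cancel₀ hj₀]
    have hx₁V : x₁ ∈ V := V.smul_mem _ hxV
    clear_value x₁
    have hvker : ∀ a, c j₀ (v a) = 0 := fun a => (hvV a).2
    set x₂ := x₁ - ∑ a, c (j a) x₁ • v a with hx₂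
    have hx₂c : c j₀ x₂ = 1 := by
      rw [hx₂, map_sub, hx₁c, map_sum, Finset.sum_eq_zero, sub_zero]
      intro a _
      rw [map_smul, hvker, smul_zero]
    have hx₂b : ∀ b, c (j b) x₂ = 0 := by
      intro b
      rw [hx₂, map_sub, map_sum, Finset.sum_eq_single b]
      · rw [map_smul, hδ, if_pos rfl, smul_eq_mul, mul_one, sub_self]
      · intro a _ hab
        rw [map_smul, hδ, if_neg hab, smul_zero]
      · intro h; exact absurd (Finset.mem_univ b) h
    have hx₂V : x₂ ∈ V := V.sub_mem hx₁V (V.sum_mem fun a _ => V.smul_mem _ (hvV a).1)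
    refine ⟨n + 1, Fin.cons j₀ j, Fin.cons x₂ v, ?_, ?_, ?_⟩
    · intro a
      refine Fin.cases ?_ (fun a => ?_) a
      · exact hx₂V
      · exact (hvV a).1
    · intro a b
      refine Fin.cases ?_ (fun a => ?_) a <;> refine Fin.cases ?_ (fun b => ?_) b
      · rw [Fin.cons_zero, Fin.cons_zero, hx₂c, if_pos rfl]
      · rw [Fin.cons_zero, Fin.cons_succ, hx₂b, if_neg (Fin.succ_ne_zero b).symm]
      · rw [Fin.cons_zero, Fin.cons_succ, hvker, if_neg (Fin.succ_ne_zero a)]
      · rw [Fin.cons_succ, Fin.cons_succ, hδ]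
        simp only [Fin.succ_inj]
    · intro y hy
      have h1 : y - c j₀ y • x₂ ∈ V' := by
        refine ⟨V.sub_mem hy (V.smul_mem _ hx₂V), ?_⟩
        change c j₀ (y - c j₀ y • x₂) = 0
        rw [map_sub, map_smul, hx₂c, smul_eq_mul, mul_one, sub_self]
      have h2 := hrep _ h1
      rw [Fin.sum_univ_succ, Fin.cons_zero, Fin.cons_zero]
      simp only [Fin.cons_succ]
      have h3 : ∀ a, c (j a) (y - c j₀ y • x₂) = c (j a) y := fun a => by
        rw [map_sub, map_smul, hx₂b, smul_zero, sub_zero]
      simp only [h3] at h2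
      rw [← h2]
      abel

variable {k K E F : Type*} [Field k] [Field K] [Algebra k K] [Field E] [Algebra k E]
  [Field F] [Algebra K F]

namespace CE

variable (C : CE k K E F)

theorem u_coeff_add (n : ℤ) (x y : F) :
    (C.u (x + y)).coeff n = (C.u x).coeff n + (C.u y).coeff n := by
  rw [map_add, HahnSeries.coeff_add]

/-- the coefficients as linear forms -/
def cf (n : ℤ) : F →ₗ[K] K where
  toFun z := (C.u z).coeff n
  map_add' x y := C.u_coeff_add n x y
  map_smul' a x := by
    rw [Algebra.smul_def, C.u_mul_const, RingHom.id_apply, smul_eq_mul]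

theorem cf_apply (n : ℤ) (z : F) : C.cf n z = (C.u z).coeff n := rfl

theorem eq_zero_of_cf {z : F} (h : ∀ n, C.cf n z = 0) : z = 0 := by
  apply C.u.injective
  rw [map_zero]
  ext n
  exact h n

/-- the automorphisms fixing `k` and `E` -/
def GG : Subgroup (SemilinearAut K F) where
  carrier := {g | (∀ a : k, SemilinearAut.baseAut g (algebraMap k K a) = algebraMap k K a) ∧
    ∀ e : E, g • C.ι e = C.ι e}
  one_mem' := ⟨fun a => by simp, fun e => one_smul _ _⟩
  mul_mem' := by
    rintro g h ⟨hg, hg'⟩ ⟨hh, hh'⟩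
    refine ⟨fun a => ?_, fun e => ?_⟩
    · rw [SemilinearAut.baseAut_mul]
      change SemilinearAut.baseAut g (SemilinearAut.baseAut h _) = _
      rw [hh, hg]
    · rw [mul_smul, hh', hg']
  inv_mem' := by
    rintro g ⟨hg, hg'⟩
    refine ⟨fun a => ?_, fun e => ?_⟩
    · rw [SemilinearAut.baseAut_inv]
      apply (SemilinearAut.baseAut g).injective
      rw [hg]
      exact (SemilinearAut.baseAut g).apply_symm_apply _
    · conv_lhs => rw [← hg' e]
      rw [inv_smul_smul]

theorem coeffMap_single_zero (φ : K →+* K) (a : K) :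
    coeffMap φ (HahnSeries.single 0 a) = HahnSeries.single 0 (φ a) := coeffMap_single _ _ _

theorem coeffMap_u_ι (σ : K ≃ₐ[k] K) (e : E) :
    coeffMap (σ : K →+* K) (C.u (C.ι e)) = C.u (C.ι e) := by
  rw [C.comm, coeffMap_coeffMap]
  exact coeffMap_congr (RingHom.ext fun c => σ.commutes c) _

theorem exists_act (σ : K ≃ₐ[k] K) (z : F) : ∃ z', C.u z' = coeffMap (σ : K →+* K) (C.u z) := by
  let L : IntermediateField K F :=
    { carrier := {z | ∃ z', C.u z' = coeffMap (σ : K →+* K) (C.u z)}
      mul_mem' := by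
        rintro a b ⟨a', ha⟩ ⟨b', hb⟩
        exact ⟨a' * b', by rw [map_mul, map_mul, map_mul, ha, hb]⟩
      add_mem' := by
        rintro a b ⟨a', ha⟩ ⟨b', hb⟩
        exact ⟨a' + b', by rw [map_add, map_add, map_add, ha, hb]⟩
      algebraMap_mem' := fun a => ⟨algebraMap K F (σ a), by
        rw [C.uc, C.uc, coeffMap_single]; rfl⟩
      inv_mem' := by
        rintro a ⟨a', ha⟩
        exact ⟨a'⁻¹, by rw [map_inv₀, map_inv₀, map_inv₀, ha]⟩ }
  have hL : L = ⊤ := by
    rw [eq_top_iff, ← C.gen, IntermediateField.adjoin_le_iff]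
    rintro _ ⟨e, rfl⟩
    exact ⟨C.ι e, (C.coeffMap_u_ι σ e).symm⟩
  have : z ∈ L := by rw [hL]; trivial
  exact this

/-- the action of an automorphism of `K` over `k` on `F` -/
theorem exists_gal (σ : K ≃ₐ[k] K) : ∃ g ∈ C.GG, (∀ a, SemilinearAut.baseAut g a = σ a) ∧
    ∀ z : F, C.u (g • z) = coeffMap (σ : K →+* K) (C.u z) := by
  choose f hf using C.exists_act σ
  choose f' hf' using C.exists_act σ.symm
  have hinj := C.u.injective
  let φ : F ≃+* F :=
    { toFun := f
      invFun := f'
      left_inv := fun z => hinj (by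
        rw [hf', hf, coeffMap_coeffMap, coeffMap_congr (g := RingHom.id K)
          (RingHom.ext fun a => σ.symm_apply_apply a), coeffMap_id])
      right_inv := fun z => hinj (by
        rw [hf, hf', coeffMap_coeffMap, coeffMap_congr (g := RingHom.id K)
          (RingHom.ext fun a => σ.apply_symm_apply a), coeffMap_id])
      map_mul' := fun x y => hinj (by rw [map_mul, hf, hf, hf, map_mul, map_mul])
      map_add' := fun x y => hinj (by rw [map_add, hf, hf, hf, map_add, map_add]) }
  have hφ : ∀ z, C.u (φ z) = coeffMap (σ : K →+* K) (C.u z) := hf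
  let g : SemilinearAut K F := ⟨(φ, (σ : K ≃+* K)), by
    rw [SemilinearAut.mem_iff]
    intro a
    apply hinj
    change C.u (φ (algebraMap K F a)) = C.u (algebraMap K F (σ a))
    rw [hφ, C.uc, C.uc, coeffMap_single]; rfl⟩
  have hg : ∀ z : F, g • z = φ z := fun z => rfl
  refine ⟨g, ⟨fun a => ?_, fun e => ?_⟩, fun a => rfl, fun z => by rw [hg, hφ]⟩
  · exact σ.commutes a
  · rw [hg]
    apply hinj
    rw [hφ, C.coeffMap_u_ι]

/-- expansions of the elements of the span of `E` -/
theorem exists_expand {J : Type*} (γ : Module.Basis J k K) {A : F}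
    (hA : A ∈ Submodule.span K (Set.range C.ι)) :
    ∀ c : K, ∃ f : J →₀ E, algebraMap K F c * A =
      f.sum fun l e => algebraMap K F (γ l) * C.ι e := by
  classical
  induction hA using Submodule.span_induction with
  | mem x hx =>
    obtain ⟨e, rfl⟩ := hx
    intro c
    refine ⟨(γ.repr c).mapRange (fun r => algebraMap k E r * e) (by simp), ?_⟩
    rw [Finsupp.sum_mapRange_index (by simp)]
    conv_lhs => rw [← γ.linearCombination_repr c, Finsupp.linearCombination_apply, Finsupp.sum]
    rw [map_sum, Finset.sum_mul, Finsupp.sum]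
    refine Finset.sum_congr rfl fun l _ => ?_
    rw [map_mul, C.ι_const, Algebra.smul_def, map_mul]
    ring
  | zero => intro c; exact ⟨0, by simp⟩
  | add x y _ _ hx hy =>
    intro c
    obtain ⟨f, hf⟩ := hx c
    obtain ⟨g, hg⟩ := hy c
    refine ⟨f + g, ?_⟩
    rw [mul_add, hf, hg, Finsupp.sum_add_index' (by simp) (fun l e e' => by
      rw [map_add, mul_add])]
  | smul a x _ hx =>
    intro c
    obtain ⟨f, hf⟩ := hx (c * a)
    refine ⟨f, ?_⟩
    rw [← hf, map_mul, Algebra.smul_def, mul_assoc]

/-- elements with coefficients in `k` come from `E` -/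
theorem mem_range_ι {z : F} {z₀ : LaurentSeries k}
    (h : C.u z = coeffMap (algebraMap k K) z₀) : ∃ e, C.ι e = z := by
  classical
  have hz : z ∈ IntermediateField.adjoin K (Set.range C.ι) := by rw [C.gen]; trivial
  rw [IntermediateField.mem_adjoin_iff_div] at hz
  obtain ⟨r, hr, s, hs, hrs⟩ := hz
  have hspan : ∀ A ∈ Algebra.adjoin K (Set.range C.ι), A ∈ Submodule.span K (Set.range C.ι) := by
    intro A hA
    have h1 : A ∈ Subalgebra.toSubmodule (Algebra.adjoin K (Set.range C.ι)) := hA
    rw [Algebra.adjoin_eq_span] at h1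
    refine Submodule.span_mono ?_ h1
    have h2 : Submonoid.closure (Set.range C.ι) ≤ MonoidHom.mrange (C.ι : E →* F) := by
      rw [Submonoid.closure_le]
      rintro _ ⟨e, rfl⟩
      exact ⟨e, rfl⟩
    rintro x hx
    obtain ⟨e, he⟩ := h2 hx
    exact ⟨e, he⟩
  by_cases hs0 : s = 0
  · refine ⟨0, ?_⟩
    rw [hrs, hs0, div_zero, map_zero]
  set γ := Module.Basis.ofVectorSpace k K with hγ
  obtain ⟨f, hf⟩ := C.exists_expand γ (hspan r hr) 1
  obtain ⟨g, hg⟩ := C.exists_expand γ (hspan s hs) 1
  rw [map_one, one_mul] at hf hg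
  set T := f.support ∪ g.support with hT
  have hf' : r = ∑ l ∈ T, algebraMap K F (γ l) * C.ι (f l) := by
    rw [hf, Finsupp.sum]
    refine Finset.sum_subset Finset.subset_union_left fun l _ hl => ?_
    rw [Finsupp.notMem_support_iff.mp hl, map_zero, mul_zero]
  have hg' : s = ∑ l ∈ T, algebraMap K F (γ l) * C.ι (g l) := by
    rw [hg, Finsupp.sum]
    refine Finset.sum_subset Finset.subset_union_right fun l _ hl => ?_
    rw [Finsupp.notMem_support_iff.mp hl, map_zero, mul_zero]
  have hrel : z * s - r = 0 := by rw [hrs, div_mul_cancel₀ _ hs0, sub_self]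
  have hrel' := congrArg C.u hrel
  rw [map_sub, map_mul, h, hf', hg', map_sum, map_sum, map_zero, Finset.mul_sum,
    ← Finset.sum_sub_distrib] at hrel'
  have hall := ld_aux T (fun l => γ l) γ.linearIndependent
    (fun l => z₀ * C.w (g l) - C.w (f l)) (by
      rw [← hrel']
      refine Finset.sum_congr rfl fun l _ => ?_
      rw [map_mul, map_mul, C.uc, C.comm, C.comm, map_sub, map_mul]
      ring)
  obtain ⟨l, hl, hgl⟩ : ∃ l ∈ T, g l ≠ 0 := by
    by_contra hcon
    push Not at hcon
    apply hs0
    rw [hg']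
    exact Finset.sum_eq_zero fun l hl => by rw [hcon l hl, map_zero, mul_zero]
  have h1 := hall l hl
  have hwg : C.w (g l) ≠ 0 := (map_ne_zero_iff _ C.w.injective).mpr hgl
  have h2 : z₀ = C.w (f l / g l) := by
    rw [map_div₀, eq_div_iff hwg]
    exact sub_eq_zero.mp h1
  refine ⟨f l / g l, C.u.injective ?_⟩
  rw [C.comm, ← h2, h]

/-- Laurent series with coefficients in `k` -/
theorem exists_coeffMap {x : LaurentSeries K}
    (h : ∀ n, x.coeff n ∈ Set.range (algebraMap k K)) :
    ∃ x₀ : LaurentSeries k, coeffMap (algebraMap k K) x₀ = x := by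
  choose f hf using h
  have hsupp : Function.support f = x.support := by
    ext n
    rw [Function.mem_support, HahnSeries.mem_support, ← hf n]
    exact (map_ne_zero_iff _ (algebraMap k K).injective).symm
  refine ⟨⟨f, by rw [hsupp]; exact x.isPWO_support⟩, ?_⟩
  ext n
  rw [coeffMap_coeff]
  exact hf n

section Desc

variable [IsAlgClosed k] [IsAlgClosed K] [CharZero k] [IsFunctionField k E] [IsFunctionField K F]

theorem smul_con {g : SemilinearAut K F} (hg : g ∈ C.GG) (P₂ : Place k E) :
    g • C.con P₂ = C.con P₂ := by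
  refine C.con_unique P₂ (d := 1) one_pos fun e he => ?_
  conv_lhs => rw [← hg.2 e]
  rw [SemilinearAut.ord_smul, C.ord_con P₂ he, one_mul]

theorem smul_Con {g : SemilinearAut K F} (hg : g ∈ C.GG) (D : Divisor k E) :
    g • C.Con D = C.Con D := by
  induction D using Finsupp.induction_linear with
  | zero => rw [map_zero]; exact smul_zero g
  | add D D' h h' => rw [map_add, smul_add, h, h']
  | single P n => rw [C.Con_single, SemilinearAut.smul_single, C.smul_con hg]

theorem smul_mem_rr {g : SemilinearAut K F} (hg : g ∈ C.GG) (D : Divisor k E) {f : F}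
    (hf : f ∈ riemannRochSpace (C.Con D)) : g • f ∈ riemannRochSpace (C.Con D) := by
  rcases eq_or_ne f 0 with rfl | hf0
  · rw [smul_zero]; exact Submodule.zero_mem _
  have hf0' : g • f ≠ 0 := by
    rw [SemilinearAut.smul_def]; exact (map_ne_zero_iff _ (RingEquiv.injective _)).mpr hf0
  rw [mem_iff_of_ne hf0']
  intro v
  have h1 := (mem_iff_of_ne hf0).mp hf (g⁻¹ • v)
  have h2 := SemilinearAut.ord_smul g (g⁻¹ • v) f
  rw [smul_inv_smul] at h2
  rw [h2]
  have h3 := SemilinearAut.divisor_smul_apply g (C.Con D) v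
  rw [C.smul_Con hg] at h3
  rw [h3]
  exact h1

/-- **descent of Riemann-Roch spaces** -/
theorem exists_basis_rr (D : Divisor k E) : ∃ (n : ℕ) (j : Fin n → ℤ) (e : Fin n → E),
    (∀ a, e a ∈ riemannRochSpace D) ∧
    (∀ a b, C.cf (j b) (C.ι (e a)) = if a = b then 1 else 0) ∧
    ∀ x ∈ riemannRochSpace (C.Con D), x = ∑ a, C.cf (j a) x • C.ι (e a) := by
  classical
  obtain ⟨n, j, v, hv, hδ, hrep⟩ := exists_coords C.cf _ (riemannRochSpace (C.Con D)) rfl
    inferInstance (fun v _ h => C.eq_zero_of_cf h)
  have hfix : ∀ a, ∀ g ∈ C.GG, ∀ σ : K ≃ₐ[k] K,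
      (∀ z : F, C.u (g • z) = coeffMap (σ : K →+* K) (C.u z)) → g • v a = v a := by
    intro a g hg σ hσ
    rw [hrep _ (C.smul_mem_rr hg D (hv a))]
    have h1 : ∀ b, C.cf (j b) (g • v a) = if a = b then 1 else 0 := by
      intro b
      rw [C.cf_apply, hσ, coeffMap_coeff, ← C.cf_apply, hδ]
      split_ifs <;> simp
    simp only [h1]
    rw [Finset.sum_eq_single a]
    · rw [if_pos rfl, one_smul]
    · intro b _ hb; rw [if_neg (Ne.symm hb), zero_smul]
    · intro h; exact absurd (Finset.mem_univ a) h
  have hmem : ∀ a, ∃ e, C.ι e = v a := by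
    intro a
    obtain ⟨x₀, hx₀⟩ := exists_coeffMap (k := k) (x := C.u (v a)) (fun n => by
      refine mem_range_of_fixed fun σ => ?_
      obtain ⟨g, hg, -, hgu⟩ := C.exists_gal σ
      have h1 := hgu (v a)
      rw [hfix a g hg σ hgu] at h1
      have h2 := congrArg (fun x : LaurentSeries K => x.coeff n) h1
      simp only [coeffMap_coeff] at h2
      exact h2.symm)
    exact C.mem_range_ι hx₀.symm
  choose e he using hmem
  refine ⟨n, j, e, fun a => ?_, fun a b => by rw [he]; exact hδ a b, fun x hx => ?_⟩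
  · rw [← C.ι_mem_iff, he]; exact hv a
  · simp only [he]
    exact hrep x hx

theorem ell_Con (D : Divisor k E) : ell (C.Con D) = ell D := by
  classical
  obtain ⟨n, j, e, he, hδ, hrep⟩ := C.exists_basis_rr D
  have hk : ∀ x : E, ∃ a : ℤ → k, ∀ m, C.cf m (C.ι x) = algebraMap k K (a m) := by
    intro x
    exact ⟨fun m => (C.w x).coeff m, fun m => by rw [C.cf_apply, C.comm, coeffMap_coeff]⟩
  -- `F` side
  have h1 : ell (C.Con D) = n := by
    have hli : LinearIndependent K (fun a => (⟨C.ι (e a), C.ι_mem_iff.mpr (he a)⟩ :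
        riemannRochSpace (C.Con D))) := by
      refine LinearIndependent.of_comp (riemannRochSpace (C.Con D)).subtype ?_
      rw [Fintype.linearIndependent_iff]
      intro c hc b
      have h2 := congrArg (C.cf (j b)) hc
      simp only [Function.comp_apply, Submodule.subtype_apply, map_sum, map_smul, map_zero, hδ,
        smul_eq_mul, mul_ite, mul_one, mul_zero, Finset.sum_ite_eq', Finset.mem_univ,
        if_true] at h2
      exact h2
    have hsp : ⊤ ≤ Submodule.span K (Set.range (fun a => (⟨C.ι (e a), C.ι_mem_iff.mpr (he a)⟩ :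
        riemannRochSpace (C.Con D)))) := by
      rintro ⟨x, hx⟩ -
      have h2 : (⟨x, hx⟩ : riemannRochSpace (C.Con D)) = ∑ a, C.cf (j a) x •
          (⟨C.ι (e a), C.ι_mem_iff.mpr (he a)⟩ : riemannRochSpace (C.Con D)) := by
        apply Subtype.ext
        rw [Submodule.coe_sum]
        exact hrep x hx
      rw [h2]
      exact Submodule.sum_mem _ fun a _ => Submodule.smul_mem _ _ (Submodule.subset_span ⟨a, rfl⟩)
    have := Module.finrank_eq_card_basis (Module.Basis.mk hli hsp)
    rw [Fintype.card_fin] at this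
    exact this
  have h2 : ell D = n := by
    have hli : LinearIndependent k (fun a => (⟨e a, he a⟩ : riemannRochSpace D)) := by
      refine LinearIndependent.of_comp (riemannRochSpace D).subtype ?_
      rw [Fintype.linearIndependent_iff]
      intro c hc b
      have h3 := congrArg (fun x => C.cf (j b) (C.ι x)) hc
      simp only [Function.comp_apply, Submodule.subtype_apply, map_sum, map_zero] at h3
      have h4 : ∀ a, C.cf (j b) (C.ι (c a • e a)) = algebraMap k K (c a) *
          (if a = b then 1 else 0) := by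
        intro a
        rw [Algebra.smul_def, map_mul, C.ι_const, C.cf_apply, C.u_mul_const, ← C.cf_apply, hδ]
      simp only [h4, mul_ite, mul_one, mul_zero, Finset.sum_ite_eq', Finset.mem_univ,
        if_true] at h3
      exact (map_eq_zero _).mp h3
    have hsp : ⊤ ≤ Submodule.span k (Set.range (fun a => (⟨e a, he a⟩ :
        riemannRochSpace D))) := by
      rintro ⟨x, hx⟩ -
      obtain ⟨a, ha⟩ := hk x
      have h3 := hrep (C.ι x) (C.ι_mem_iff.mpr hx)
      have h4 : x = ∑ b, a (j b) • e b := by
        apply C.ι.injective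
        conv_lhs => rw [h3]
        rw [map_sum]
        refine Finset.sum_congr rfl fun b _ => ?_
        rw [ha, Algebra.smul_def, Algebra.smul_def, map_mul, C.ι_const]
      have h5 : (⟨x, hx⟩ : riemannRochSpace D) = ∑ b, a (j b) • (⟨e b, he b⟩ :
          riemannRochSpace D) := by
        apply Subtype.ext
        rw [Submodule.coe_sum]
        exact h4
      rw [h5]
      exact Submodule.sum_mem _ fun a _ => Submodule.smul_mem _ _ (Submodule.subset_span ⟨a, rfl⟩)
    have := Module.finrank_eq_card_basis (Module.Basis.mk hli hsp)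
    rw [Fintype.card_fin] at this
    exact this
  rw [h1, h2]

/-- **principal divisors descend** -/
theorem principal_descent {D : Divisor k E} {h : F} (h0 : h ≠ 0)
    (hD : divisorOf (k := K) h = C.Con D) : ∃ e : E, e ≠ 0 ∧ divisorOf (k := k) e = D := by
  have hdeg : Divisor.degree D = 0 := by
    rw [← C.degree_Con, ← hD, degree_divisorOf]
  have h1 : h ∈ riemannRochSpace (C.Con (-D)) := by
    rw [mem_iff_div h0, map_neg, hD]
    simp
  have h2 : 0 < ell (C.Con (-D)) := by
    unfold ell
    haveI : Nontrivial (riemannRochSpace (C.Con (-D))) :=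
      ⟨⟨⟨h, h1⟩, 0, fun h' => h0 (congrArg Subtype.val h')⟩⟩
    exact Module.finrank_pos
  rw [C.ell_Con] at h2
  haveI : Nontrivial (riemannRochSpace (-D)) := Module.nontrivial_of_finrank_pos h2
  obtain ⟨⟨e, he⟩, he0⟩ := exists_ne (0 : riemannRochSpace (-D))
  have he0' : e ≠ 0 := fun h' => he0 (Subtype.ext h')
  refine ⟨e, he0', ?_⟩
  have h3 : 0 ≤ divisorOf (k := k) e - D := by
    have := (mem_iff_div he0').mp he
    rwa [← sub_eq_add_neg] at this
  have h4 : Divisor.degree (divisorOf (k := k) e - D) = 0 := by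
    rw [map_sub, degree_divisorOf, hdeg, sub_zero]
  have h5 : divisorOf (k := k) e - D = 0 := by
    ext P
    have h6 := le_degree_one h3 P
    rw [h4] at h6
    have h7 := h3 P
    rw [Finsupp.coe_zero, Pi.zero_apply] at h7 ⊢
    omega
  exact sub_eq_zero.mp h5

include C in
/-- the genus does not change -/
theorem rr_Con {g c g' c' : ℤ} (hE : RR k E g c) (hF : RR K F g' c') : g' = g := by
  obtain ⟨t, ht, -⟩ := IsFunctionField.exists_transcendental (k := k) (F := E)
  obtain ⟨P, -⟩ := exists_ord_pos_of_transcendental (k := k) ht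
  have h1 := hE.eq (Finsupp.single P (max c c')) (by rw [degree_single_one]; exact le_max_left _ _)
  have h2 := hF.eq (C.Con (Finsupp.single P (max c c')))
    (by rw [C.degree_Con, degree_single_one]; exact le_max_right _ _)
  rw [C.ell_Con, C.degree_Con] at h2
  omega

end Desc

end CE

end Fermat.Agent.TorP4
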