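import Fermat.Agent.TorP4.Tors

/-!
# Laurent expansions at a place
-/

set_option autoImplicit false
set_option linter.unusedSectionVars false
set_option linter.style.haveILetI false

noncomputable section

namespace Fermat.Agent.TorP4

open AlgebraicCurve Fermat.Agent.Curves Fermat.Agent.PicFlat

section Rec

variable {K O : Type*} [Field K] [CommRing O] [IsDomain O] [Algebra K O]
  (v : O →ₐ[K] K) (π : O) (hπ : π ≠ 0) (st : O → O)
  (hst : ∀ f, π * st f = f - algebraMap K O (v f))

include hπ hst

theorem st_add (f g : O) : st (f + g) = st f + st g := by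
  apply mul_left_cancel₀ hπ
  rw [mul_add, hst, hst, hst, map_add, map_add]
  ring

theorem st_smul (a : K) (f : O) : st (algebraMap K O a * f) = algebraMap K O a * st f := by
  apply mul_left_cancel₀ hπ
  have : v (algebraMap K O a * f) = a * v f := by
    rw [map_mul, AlgHom.commutes]; rfl
  rw [hst, this, map_mul]
  have h := hst f
  linear_combination (-algebraMap K O a) * h

theorem st_const (a : K) : st (algebraMap K O a) = 0 := by
  apply mul_left_cancel₀ hπ
  have : v (algebraMap K O a) = a := by rw [AlgHom.commutes]; rfl
  rw [hst, this, sub_self, mul_zero]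

theorem st_mul (f g : O) : st (f * g) = st f * g + algebraMap K O (v f) * st g := by
  apply mul_left_cancel₀ hπ
  rw [hst, map_mul, map_mul]
  have h := hst f
  have h' := hst g
  linear_combination (-g) * h + (-algebraMap K O (v f)) * h'

omit hπ hst in
/-- the coefficients of the expansion -/
def cof (n : ℕ) (f : O) : K := v (st^[n] f)

omit hπ hst in
theorem cof_succ (n : ℕ) (f : O) : cof v st (n + 1) f = cof v st n (st f) := rfl

theorem cof_add (n : ℕ) : ∀ f g : O, cof v st n (f + g) = cof v st n f + cof v st n g := by
  induction n with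
  | zero => intro f g; exact map_add v f g
  | succ n ih => intro f g; rw [cof_succ, cof_succ, cof_succ, st_add v π hπ st hst, ih]

theorem cof_smul (n : ℕ) : ∀ (a : K) (f : O), cof v st n (algebraMap K O a * f) =
    a * cof v st n f := by
  induction n with
  | zero =>
    intro a f
    change v (algebraMap K O a * f) = a * v f
    rw [map_mul, AlgHom.commutes]; rfl
  | succ n ih => intro a f; rw [cof_succ, cof_succ, st_smul v π hπ st hst, ih]

theorem cof_zero (n : ℕ) : cof v st n 0 = 0 := by
  have := cof_smul v π hπ st hst n 0 0
  rwa [mul_zero, zero_mul] at this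

theorem cof_mul (n : ℕ) : ∀ f g : O, cof v st n (f * g) =
    PowerSeries.coeff n ((PowerSeries.mk fun i => cof v st i f) *
      (PowerSeries.mk fun i => cof v st i g)) := by
  induction n with
  | zero =>
    intro f g
    rw [PowerSeries.coeff_zero_eq_constantCoeff_apply, map_mul,
      ← PowerSeries.coeff_zero_eq_constantCoeff_apply,
      ← PowerSeries.coeff_zero_eq_constantCoeff_apply, PowerSeries.coeff_mk,
      PowerSeries.coeff_mk]
    exact map_mul v f g
  | succ n ih =>
    intro f g
    rw [cof_succ, st_mul v π hπ st hst, cof_add v π hπ st hst, ih, cof_smul v π hπ st hst]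
    have h1 : (PowerSeries.mk fun i => cof v st i f) =
        PowerSeries.X * (PowerSeries.mk fun i => cof v st i (st f)) +
          PowerSeries.C (v f) := by
      ext m
      rcases m with _ | m
      · simp [cof]
      · rw [map_add, PowerSeries.coeff_succ_X_mul, PowerSeries.coeff_mk, PowerSeries.coeff_mk,
          PowerSeries.coeff_C, if_neg (Nat.succ_ne_zero m), add_zero, cof_succ]
    conv_rhs => rw [h1]
    rw [add_mul, map_add, mul_assoc, PowerSeries.coeff_succ_X_mul, PowerSeries.coeff_C_mul,
      PowerSeries.coeff_mk, cof_succ]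

/-- the expansion -/
def expd : O →+* PowerSeries K where
  toFun f := PowerSeries.mk fun n => cof v st n f
  map_one' := by
    ext n
    rw [PowerSeries.coeff_mk]
    rcases n with _ | n
    · simp [cof]
    · have := st_const v π hπ st hst 1
      rw [map_one] at this
      rw [cof_succ, this, cof_zero v π hπ st hst, PowerSeries.coeff_one,
        if_neg (Nat.succ_ne_zero n)]
  map_mul' f g := by
    ext n
    rw [PowerSeries.coeff_mk, cof_mul v π hπ st hst]
  map_zero' := by
    ext n
    rw [PowerSeries.coeff_mk, cof_zero v π hπ st hst, map_zero]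
  map_add' f g := by
    ext n
    rw [map_add, PowerSeries.coeff_mk, PowerSeries.coeff_mk, PowerSeries.coeff_mk,
      cof_add v π hπ st hst]

theorem expd_const (a : K) : expd v π hπ st hst (algebraMap K O a) = PowerSeries.C a := by
  ext n
  change PowerSeries.coeff n (PowerSeries.mk fun n => cof v st n (algebraMap K O a)) = _
  rw [PowerSeries.coeff_mk, PowerSeries.coeff_C]
  rcases n with _ | n
  · rw [if_pos rfl]
    change v (algebraMap K O a) = a
    rw [AlgHom.commutes]; rfl
  · rw [cof_succ, st_const v π hπ st hst, cof_zero v π hπ st hst, if_neg (Nat.succ_ne_zero n)]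

theorem expd_ker {f : O} (h : expd v π hπ st hst f = 0) (n : ℕ) : π ^ n ∣ f := by
  have hc : ∀ n, cof v st n f = 0 := by
    intro n
    have := congrArg (PowerSeries.coeff n) h
    rw [map_zero] at this
    change PowerSeries.coeff n (PowerSeries.mk fun n => cof v st n f) = 0 at this
    rwa [PowerSeries.coeff_mk] at this
  clear h
  induction n generalizing f with
  | zero => rw [pow_zero]; exact one_dvd f
  | succ n ih =>
    have h1 := ih (f := st f) (fun n => hc (n + 1))
    obtain ⟨g, hg⟩ := h1
    have h2 := hst f
    have h3 : v f = 0 := hc 0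
    rw [h3, map_zero, sub_zero] at h2
    exact ⟨g, by rw [← h2, hg, pow_succ']; ring⟩

end Rec

variable {K F : Type*} [Field K] [IsAlgClosed K] [Field F] [Algebra K F] [IsFunctionField K F]

theorem exists_laurent (P : Place K F) : ∃ u : F →+* LaurentSeries K,
    ∀ a, u (algebraMap K F a) = HahnSeries.single 0 a := by
  obtain ⟨π, hπ0, hπ⟩ := exists_ord_eq P 1
  let O := P.toValuationSubring
  let v : O →ₐ[K] K :=
    { toFun := fun f => value P f
      map_one' := by
        have := value_algebraMap (F := F) P 1
        rwa [map_one] at this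
      map_mul' := fun x y => value_mul P x.2 y.2
      map_zero' := by
        have := value_algebraMap (F := F) P 0
        rwa [map_zero] at this
      map_add' := fun x y => value_add P x.2 y.2
      commutes' := fun a => value_algebraMap (F := F) P a }
  have hπO : π ∈ O := (mem_iff_ord P hπ0).mpr (by omega)
  let p : O := ⟨π, hπO⟩
  have hp : p ≠ 0 := fun h => hπ0 (congrArg Subtype.val h)
  have hst : ∀ f : O, ∃ g : O, p * g = f - algebraMap K O (v f) := by
    intro f
    have h1 := value_spec P f.2
    rw [val_lt_one_iff] at h1
    rcases eq_or_ne ((f : F) - algebraMap K F (value P f)) 0 with h0 | h0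
    · refine ⟨0, ?_⟩
      rw [mul_zero]
      exact (Subtype.ext h0.symm)
    · have h2 := h1.resolve_left h0
      refine ⟨⟨((f : F) - algebraMap K F (value P f)) / π, ?_⟩, ?_⟩
      · rw [mem_iff_ord P (div_ne_zero h0 hπ0), ord_div P h0 hπ0, hπ]
        omega
      · apply Subtype.ext
        change π * (((f : F) - algebraMap K F (value P f)) / π) = _
        rw [mul_div_cancel₀ _ hπ0]
        rfl
  choose st hst using hst
  have hinj : Function.Injective ((HahnSeries.ofPowerSeries ℤ K).comp (expd v p hp st hst)) := by
    rw [injective_iff_map_eq_zero]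
    intro f hf
    rw [RingHom.comp_apply] at hf
    have h1 : expd v p hp st hst f = 0 :=
      HahnSeries.ofPowerSeries_injective (by rw [hf, map_zero])
    by_contra hf0
    have hf0' : (f : F) ≠ 0 := fun h => hf0 (Subtype.ext h)
    have h2 := expd_ker v p hp st hst h1 ((P.ord (f : F)).toNat + 1)
    obtain ⟨g, hg⟩ := h2
    have hg' : (f : F) = π ^ ((P.ord (f : F)).toNat + 1) * (g : F) := congrArg Subtype.val hg
    have hg0 : (g : F) ≠ 0 := by
      intro h
      rw [h, mul_zero] at hg'
      exact hf0' hg'
    have h3 := congrArg P.ord hg'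
    rw [P.ord_mul (pow_ne_zero _ hπ0) hg0, ord_pow, hπ] at h3
    have h4 := (mem_iff_ord P hg0).mp g.2
    have h5 := (mem_iff_ord P hf0').mp f.2
    push_cast at h3
    rw [Int.toNat_of_nonneg h5] at h3
    omega
  refine ⟨IsFractionRing.lift (K := F) hinj, fun a => ?_⟩
  have h1 : algebraMap K F a = algebraMap O F (algebraMap K O a) := rfl
  rw [h1, IsFractionRing.lift_algebraMap, RingHom.comp_apply, expd_const,
    HahnSeries.ofPowerSeries_C]
  rfl

end Fermat.Agent.TorP4
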