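import Fermat.Agent.TorP4.Laur

/-!
# Models over subfields
-/

set_option autoImplicit false
set_option linter.unusedSectionVars false
set_option linter.style.haveILetI false

noncomputable section

namespace Fermat.Agent.TorP4

open AlgebraicCurve Fermat.Agent.Curves Fermat.Agent.PicFlat ModularCurve
open scoped IntermediateField Polynomial

section Mk

variable {k K F : Type*} [Field k] [Field K] [Algebra k K] [Field F] [Algebra K F]
  [Algebra k F] [IsScalarTower k K F]
  (u : F →+* LaurentSeries K) (uc : ∀ a, u (algebraMap K F a) = HahnSeries.single 0 a)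

include uc in
/-- elements with coefficients in `k` -/
def coefField (k : Type*) [Field k] [Algebra k K] [Algebra k F] [IsScalarTower k K F] :
    IntermediateField k F where
  carrier := {z | ∃ z₀ : LaurentSeries k, coeffMap (algebraMap k K) z₀ = u z}
  mul_mem' := by
    rintro a b ⟨a', ha⟩ ⟨b', hb⟩
    exact ⟨a' * b', by rw [map_mul, map_mul, ha, hb]⟩
  add_mem' := by
    rintro a b ⟨a', ha⟩ ⟨b', hb⟩
    exact ⟨a' + b', by rw [map_add, map_add, ha, hb]⟩
  algebraMap_mem' := fun a => ⟨HahnSeries.single 0 a, by
    rw [coeffMap_single, IsScalarTower.algebraMap_apply k K F, uc]⟩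
  inv_mem' := by
    rintro a ⟨a', ha⟩
    exact ⟨a'⁻¹, by rw [map_inv₀, map_inv₀, ha]⟩

theorem mem_coefField {z : F} : z ∈ coefField u uc k ↔
    ∃ z₀ : LaurentSeries k, coeffMap (algebraMap k K) z₀ = u z := Iff.rfl

variable (S : Set F) (hS : ∀ s ∈ S, ∃ z₀ : LaurentSeries k, coeffMap (algebraMap k K) z₀ = u s)

include uc hS in
theorem adjoin_le_coefField : IntermediateField.adjoin k S ≤ coefField u uc k := by
  rw [IntermediateField.adjoin_le_iff]
  exact hS

/-- the Laurent expansion -/
def mkW : IntermediateField.adjoin k S →+* LaurentSeries k :=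
  have hinj : Function.Injective (coeffMap (algebraMap k K)) := RingHom.injective _
  have h := fun e : IntermediateField.adjoin k S =>
    (adjoin_le_coefField u uc S hS e.2 : _ ∈ coefField u uc k)
  { toFun := fun e => (h e).choose
    map_one' := hinj (by rw [(h 1).choose_spec, map_one]; exact map_one u)
    map_mul' := fun a b => hinj (by
      rw [(h (a * b)).choose_spec, map_mul, (h a).choose_spec, (h b).choose_spec]
      exact map_mul u _ _)
    map_zero' := hinj (by rw [(h 0).choose_spec, map_zero]; exact map_zero u)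
    map_add' := fun a b => hinj (by
      rw [(h (a + b)).choose_spec, map_add, (h a).choose_spec, (h b).choose_spec]
      exact map_add u _ _) }

theorem mkW_spec (e : IntermediateField.adjoin k S) :
    coeffMap (algebraMap k K) (mkW u uc S hS e) = u e :=
  (adjoin_le_coefField u uc S hS e.2 : _ ∈ coefField u uc k).choose_spec

/-- extension of constants -/
def mkCE (hgen : IntermediateField.adjoin K S = ⊤) :
    CE k K (IntermediateField.adjoin k S) F where
  ι := algebraMap (IntermediateField.adjoin k S) F
  w := mkW u uc S hS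
  u := u
  wc := fun a => (coeffMap (algebraMap k K)).injective (by
    rw [mkW_spec, coeffMap_single, ← uc, ← IsScalarTower.algebraMap_apply k K F]
    rfl)
  uc := uc
  comm := fun e => (mkW_spec u uc S hS e).symm
  gen := by
    rw [eq_top_iff, ← hgen]
    refine IntermediateField.adjoin.mono _ _ _ ?_
    intro s hs
    exact ⟨⟨s, IntermediateField.subset_adjoin _ _ hs⟩, rfl⟩

include uc hS in
/-- elements with coefficients in `k` -/
theorem mem_adjoin_of_coef {z : F} (hz : z ∈ IntermediateField.adjoin K S)
    (hz' : ∃ z₀ : LaurentSeries k, coeffMap (algebraMap k K) z₀ = u z) :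
    z ∈ IntermediateField.adjoin k S := by
  set F' := IntermediateField.adjoin K S with hF'
  let S' : Set F' := Subtype.val ⁻¹' S
  have hSr : S ⊆ Set.range (Subtype.val : F' → F) := by
    intro s hs
    exact ⟨⟨s, IntermediateField.subset_adjoin _ _ hs⟩, rfl⟩
  have himg : Subtype.val '' S' = S := by
    rw [Set.image_preimage_eq_iff]
    exact hSr
  have hgen : IntermediateField.adjoin K S' = ⊤ := by
    apply IntermediateField.map_injective F'.val
    rw [IntermediateField.adjoin_map]
    have h1 : F'.val '' S' = S := himg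
    rw [h1]
    ext x
    constructor
    · intro hx
      exact ⟨⟨x, hx⟩, trivial, rfl⟩
    · rintro ⟨y, -, rfl⟩
      exact y.2
  let u' : F' →+* LaurentSeries K := u.comp (algebraMap F' F)
  have uc' : ∀ a, u' (algebraMap K F' a) = HahnSeries.single 0 a := fun a => uc a
  have hS' : ∀ s ∈ S', ∃ z₀ : LaurentSeries k, coeffMap (algebraMap k K) z₀ = u' s :=
    fun s hs => hS s hs
  letI : Algebra k F' := ((algebraMap K F').comp (algebraMap k K)).toAlgebra
  haveI : IsScalarTower k K F' := IsScalarTower.of_algebraMap_eq fun _ => rfl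
  haveI : IsScalarTower k F' F := IsScalarTower.of_algebraMap_eq fun a => by
    rw [IsScalarTower.algebraMap_apply k K F]
    rfl
  obtain ⟨z₀, hz₀⟩ := hz'
  obtain ⟨e, he⟩ := (mkCE (k := k) u' uc' S' hS' hgen).mem_range_ι (z := ⟨z, hz⟩) (z₀ := z₀)
    hz₀.symm
  have h2 : (e : F') = ⟨z, hz⟩ := he
  have h3 : z = IsScalarTower.toAlgHom k F' F (e : F') := by rw [h2]; rfl
  rw [h3]
  have h4 : IsScalarTower.toAlgHom k F' F (e : F') ∈
      (IntermediateField.adjoin k S').map (IsScalarTower.toAlgHom k F' F) := ⟨_, e.2, rfl⟩
  rw [IntermediateField.adjoin_map] at h4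
  have h5 : (IsScalarTower.toAlgHom k F' F) '' S' = S := himg
  rwa [h5] at h4

end Mk

end Fermat.Agent.TorP4
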