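import Fermat.Agent.TorP4.Tors

/-!
# The conorm on divisor classes, torsion
-/

set_option autoImplicit false
set_option linter.unusedSectionVars false
set_option linter.style.haveILetI false

noncomputable section

namespace Fermat.Agent.TorP4

open AlgebraicCurve Fermat.Agent.Curves Fermat.Agent.PicFlat ModularCurve SemilinearAut
open scoped IntermediateField Pointwise

variable {k K E F : Type*} [Field k] [Field K] [Algebra k K] [Field E] [Algebra k E]
  [Field F] [Algebra K F]

namespace CE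

variable (C : CE k K E F)
variable [IsAlgClosed k] [IsAlgClosed K] [CharZero k] [IsFunctionField k E] [IsFunctionField K F]

/-- conorm of divisors of degree zero -/
def conZ : Divisor.degZero (K := k) (F := E) →+ Divisor.degZero (K := K) (F := F) :=
  (C.Con.comp (AddSubgroup.subtype _)).codRestrict _ (fun D => by
    rw [Divisor.mem_degZero]
    change Divisor.degree (C.Con D) = 0
    rw [C.degree_Con]
    exact Divisor.mem_degZero.mp D.2)

theorem coe_conZ (D : Divisor.degZero (K := k) (F := E)) :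
    ((C.conZ D : Divisor.degZero (K := K) (F := F)) : Divisor K F) = C.Con D := rfl

theorem Leq_Con {D D' : Divisor k E} : Leq (C.Con D) (C.Con D') ↔ Leq D D' := by
  constructor
  · rintro ⟨h, h0, hh⟩
    rw [← map_sub] at hh
    obtain ⟨e, he0, he⟩ := C.principal_descent h0 hh
    exact ⟨e, he0, he⟩
  · rintro ⟨e, he0, he⟩
    refine ⟨C.ι e, (map_ne_zero_iff _ C.ι.injective).mpr he0, ?_⟩
    rw [C.div_ι he0, he, map_sub]

/-- conorm of divisor classes -/
def conP : Pic0 k E →+ Pic0 K F :=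
  QuotientAddGroup.map _ _ C.conZ (by
    intro D hD
    rw [AddSubgroup.mem_comap, AddSubgroup.mem_addSubgroupOf]
    rw [AddSubgroup.mem_addSubgroupOf] at hD
    obtain ⟨f, hf0, hf⟩ := hD
    have h1 : divisorOf (k := k) f = (D : Divisor k E) := by
      ext P
      rw [divisorOf_apply, hf P]
    refine ⟨C.ι f, (map_ne_zero_iff _ C.ι.injective).mpr hf0, fun P => ?_⟩
    rw [C.coe_conZ, ← h1, ← C.div_ι hf0, divisorOf_apply])

theorem conP_mk (D : Divisor.degZero (K := k) (F := E)) :
    C.conP (Pic0.mk D) = Pic0.mk (C.conZ D) := rfl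

theorem conP_injective : Function.Injective C.conP := by
  intro x y h
  obtain ⟨D, rfl⟩ := Pic0.mk_surjective x
  obtain ⟨D', rfl⟩ := Pic0.mk_surjective y
  rw [C.conP_mk, C.conP_mk, mk_eq_iff, C.coe_conZ, C.coe_conZ, C.Leq_Con] at h
  exact (mk_eq_iff _ _).mpr h

theorem nsmul_mk {D : Divisor.degZero (K := K) (F := F)} {n : ℕ} :
    n • Pic0.mk D = 0 ↔ Leq (n • (D : Divisor K F)) 0 := by
  have h1 : n • Pic0.mk D = Pic0.mk (n • D) := rfl
  rw [h1, ← Pic0.mk_zero, mk_eq_iff]
  rfl

/-- **torsion classes descend** -/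
theorem exists_conP {n : ℕ} (hfin : {x : Pic0 K F | n • x = 0}.Finite) {x : Pic0 K F}
    (hx : n • x = 0) : ∃ y, C.conP y = x := by
  obtain ⟨D, rfl⟩ := Pic0.mk_surjective x
  rw [nsmul_mk] at hx
  obtain ⟨D₀, hD₀, hleq⟩ := C.exists_descent hfin (D := (D : Divisor K F))
    (Divisor.mem_degZero.mp D.2) (by
      intro g _
      have hdeg : Divisor.degree (g • (D : Divisor K F)) = 0 := by
        rw [SemilinearAut.degree_smul]; exact Divisor.mem_degZero.mp D.2
      refine ⟨⟨g • (D : Divisor K F), Divisor.mem_degZero.mpr hdeg⟩, Leq.refl _, ?_⟩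
      change n • Pic0.mk _ = 0
      rw [nsmul_mk]
      have h1 := hx.smul g
      rw [smul_zero, smul_comm] at h1
      exact h1)
  refine ⟨Pic0.mk ⟨D₀, Divisor.mem_degZero.mpr hD₀⟩, ?_⟩
  rw [C.conP_mk, mk_eq_iff, C.coe_conZ]
  exact hleq.symm

include C in
theorem card_torsion_eq {n : ℕ} (hfin : {x : Pic0 K F | n • x = 0}.Finite) :
    Nat.card {x : Pic0 k E // n • x = 0} = Nat.card {x : Pic0 K F // n • x = 0} := by
  refine Nat.card_eq_of_bijective (fun x => ⟨C.conP x, by
    rw [← map_nsmul, x.2, map_zero]⟩) ⟨?_, ?_⟩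
  · intro x y h
    exact Subtype.ext (C.conP_injective (congrArg Subtype.val h))
  · rintro ⟨x, hx⟩
    obtain ⟨y, rfl⟩ := C.exists_conP hfin hx
    refine ⟨⟨y, C.conP_injective ?_⟩, rfl⟩
    rw [map_nsmul, map_zero]
    exact hx

theorem card_torsion_le {n : ℕ} (hfin : {x : Pic0 k E | n • x = 0}.Finite)
    (S : Finset (Pic0 K F)) (hS : ∀ x ∈ S, n • x = 0)
    (hD : ∀ x ∈ S, ∃ D : Divisor.degZero (K := K) (F := F), Pic0.mk D = x ∧
      ∀ P, (D : Divisor K F) P ≠ 0 → P ∈ Set.range C.con) :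
    S.card ≤ Nat.card {x : Pic0 k E // n • x = 0} := by
  classical
  have h1 : ∀ x : S, ∃ y : Pic0 k E, C.conP y = x ∧ n • y = 0 := by
    rintro ⟨x, hx⟩
    obtain ⟨D, hDx, hD⟩ := hD x hx
    obtain ⟨D₀, hD₀⟩ := C.mem_range_Con hD
    have hdeg : Divisor.degree D₀ = 0 := by
      rw [← C.degree_Con, hD₀]; exact Divisor.mem_degZero.mp D.2
    have h2 : C.conP (Pic0.mk ⟨D₀, Divisor.mem_degZero.mpr hdeg⟩) = x := by
      rw [C.conP_mk, ← hDx]
      congr 1
      exact Subtype.ext hD₀
    refine ⟨_, h2, C.conP_injective ?_⟩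
    rw [map_nsmul, h2, map_zero]
    exact hS x hx
  choose f hf hfn using h1
  haveI : Finite {x : Pic0 k E // n • x = 0} := hfin.to_subtype
  have h3 : Nat.card S ≤ Nat.card {x : Pic0 k E // n • x = 0} :=
    Nat.card_le_card_of_injective (fun x => ⟨f x, hfn x⟩) (by
      intro x y h
      have h4 : f x = f y := congrArg Subtype.val h
      apply Subtype.ext
      rw [← hf x, ← hf y, h4])
  rwa [Nat.card_eq_fintype_card, Fintype.card_coe] at h3

end CE

end Fermat.Agent.TorP4
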