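import Fermat.Agent.TorP4.MkCE
import Fermat.Agent.TorP4.PicC

/-!
# Models over small subfields
-/

set_option autoImplicit false
set_option linter.unusedSectionVars false
set_option linter.style.haveILetI false

noncomputable section

namespace Fermat.Agent.TorP4

open AlgebraicCurve Fermat.Agent.Curves Fermat.Agent.PicFlat ModularCurve
open scoped IntermediateField Polynomial

section FF

variable {k K F : Type*} [Field k] [Field K] [Algebra k K] [Field F] [Algebra K F]
  [Algebra k F] [IsScalarTower k K F]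
  (u : F →+* LaurentSeries K) (uc : ∀ a, u (algebraMap K F a) = HahnSeries.single 0 a)

include uc in
/-- the model is a function field -/
theorem isFunctionField_model {t y : F} (ht : Transcendental K t)
    (hy : IsIntegral K⟮t⟯ y)
    (hA : ∀ s ∈ ({t, y} : Set F), ∃ z₀ : LaurentSeries k, coeffMap (algebraMap k K) z₀ = u s)
    (hB : ∀ j, ∃ z₀ : LaurentSeries k, coeffMap (algebraMap k K) z₀ =
      u ((minpoly K⟮t⟯ y).coeff j)) :
    IsFunctionField k (IntermediateField.adjoin k ({t, y} : Set F)) := by
  set E := IntermediateField.adjoin k ({t, y} : Set F) with hE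
  have htE : t ∈ E := IntermediateField.subset_adjoin _ _ (by simp)
  have hyE : y ∈ E := IntermediateField.subset_adjoin _ _ (by simp)
  let x : E := ⟨t, htE⟩
  let z : E := ⟨y, hyE⟩
  have htk : Transcendental k t := fun h => ht (h.tower_top K)
  have hx : Transcendental k x := by
    intro h
    exact htk (h.algHom E.val)
  refine ⟨x, hx, ?_⟩
  -- the coefficients of the minimal polynomial
  let θ : k⟮x⟯ →+* F := (algebraMap E F).comp (algebraMap k⟮x⟯ E)
  have hθ : ∀ c : F, c ∈ IntermediateField.adjoin k ({t} : Set F) → c ∈ Set.range θ := by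
    intro c hc
    have h1 := IntermediateField.adjoin_map k {x} E.val
    rw [Set.image_singleton] at h1
    have h2 : c ∈ (IntermediateField.adjoin k {x}).map E.val := by rw [h1]; exact hc
    obtain ⟨e, he, rfl⟩ := h2
    exact ⟨⟨e, he⟩, rfl⟩
  have hcoef : ∀ j, ((minpoly K⟮t⟯ y).coeff j : F) ∈ Set.range θ := by
    intro j
    apply hθ
    refine mem_adjoin_of_coef u uc {t} (fun s hs => hA s ?_) ((minpoly K⟮t⟯ y).coeff j).2 (hB j)
    rw [Set.mem_singleton_iff] at hs
    simp [hs]
  have hlift : (minpoly K⟮t⟯ y).map (algebraMap K⟮t⟯ F) ∈ Polynomial.lifts θ := by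
    rw [Polynomial.lifts_iff_coeff_lifts]
    intro j
    rw [Polynomial.coeff_map]
    exact hcoef j
  obtain ⟨q, hq, -, hqm⟩ := Polynomial.lifts_and_natDegree_eq_and_monic hlift
    ((minpoly.monic hy).map _)
  have hz : IsIntegral k⟮x⟯ z := by
    refine ⟨q, hqm, ?_⟩
    apply (algebraMap E F).injective
    rw [map_zero, Polynomial.hom_eval₂]
    change Polynomial.eval₂ θ y q = 0
    rw [← Polynomial.eval_map, hq, Polynomial.eval_map]
    exact minpoly.aeval K⟮t⟯ y
  have hfd : FiniteDimensional k⟮x⟯ k⟮x⟯⟮z⟯ := IntermediateField.adjoin.finiteDimensional hz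
  have htop : (k⟮x⟯⟮z⟯ : IntermediateField k⟮x⟯ E) = ⊤ := by
    rw [eq_top_iff]
    have h1 : (IntermediateField.adjoin k ({x, z} : Set E)) = ⊤ := by
      apply IntermediateField.map_injective E.val
      rw [IntermediateField.adjoin_map]
      have h2 : E.val '' {x, z} = {t, y} := by
        rw [Set.image_insert_eq, Set.image_singleton]; rfl
      rw [h2]
      ext c
      constructor
      · intro hc
        exact ⟨⟨c, hc⟩, trivial, rfl⟩
      · rintro ⟨e, -, rfl⟩
        exact e.2
    have h3 : IntermediateField.adjoin k ({x, z} : Set E) ≤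
        (k⟮x⟯⟮z⟯ : IntermediateField k⟮x⟯ E).restrictScalars k := by
      rw [IntermediateField.adjoin_le_iff]
      rintro s (rfl | hs)
      · exact (k⟮x⟯⟮z⟯ : IntermediateField k⟮x⟯ E).algebraMap_mem
          ⟨x, IntermediateField.mem_adjoin_simple_self k x⟩
      · rw [Set.mem_singleton_iff.mp hs]
        exact IntermediateField.mem_adjoin_simple_self _ z
    intro e _
    have h4 : e ∈ IntermediateField.adjoin k ({x, z} : Set E) := by rw [h1]; trivial
    exact h3 h4
  rw [htop] at hfd
  exact (IntermediateField.topEquiv (F := k⟮x⟯) (E := E)).toLinearEquiv.finiteDimensional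

end FF

variable {K F : Type*} [Field K] [Field F] [Algebra K F]

/-- the coefficients in `k` -/
theorem exists_coef {k : Subfield K} {x : LaurentSeries K} (h : ∀ n, x.coeff n ∈ k) :
    ∃ x₀ : LaurentSeries k, coeffMap (algebraMap k K) x₀ = x :=
  CE.exists_coeffMap fun n => ⟨⟨_, h n⟩, rfl⟩

variable [IsAlgClosed K] [CharZero K] [IsFunctionField K F]

/-- **models over small subfields** -/
theorem exists_model (hsmall : ∀ A : Set K, A.Countable → ∃ k : Subfield K, A ⊆ k ∧
      IsAlgClosed k ∧ Nonempty (k →+* ℂ)) (T : Finset (Place K F)) :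
    ∃ (k : Subfield K) (E : IntermediateField k F) (C : CE k K E F),
      IsAlgClosed k ∧ Nonempty (k →+* ℂ) ∧ IsFunctionField k E ∧
      ∀ P ∈ T, ∃ e : E, e ≠ 0 ∧ P.ord (C.ι e) ≠ 0 := by
  obtain ⟨t, ht, hfin⟩ := IsFunctionField.exists_transcendental (k := K) (F := F)
  haveI : FiniteDimensional K⟮t⟯ F := hfin
  haveI : CharZero K⟮t⟯ := charZero_of_injective_algebraMap (algebraMap K K⟮t⟯).injective
  obtain ⟨y, hy⟩ := Field.exists_primitive_element K⟮t⟯ F
  have hyint : IsIntegral K⟮t⟯ y := Algebra.IsIntegral.isIntegral y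
  obtain ⟨P₀, -⟩ := exists_ord_pos_of_transcendental (k := K) ht
  obtain ⟨u, uc⟩ := exists_laurent P₀
  let A : Set K := (⋃ s ∈ ({t, y} : Set F), Set.range fun n : ℤ => (u s).coeff n) ∪
    (⋃ j : ℕ, Set.range fun n : ℤ => (u ((minpoly K⟮t⟯ y).coeff j)).coeff n) ∪
    ((fun P : Place K F => value P t) '' T)
  have hA : A.Countable := by
    refine Set.Countable.union (Set.Countable.union ?_ ?_) ?_
    · exact Set.Countable.biUnion ((Set.finite_singleton y).insert t).countable
        fun s _ => Set.countable_range _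
    · exact Set.countable_iUnion fun j => Set.countable_range _
    · exact (T.finite_toSet.image _).countable
  obtain ⟨k, hAk, hk, hkC⟩ := hsmall A hA
  have hS : ∀ s ∈ ({t, y} : Set F), ∃ z₀ : LaurentSeries k,
      coeffMap (algebraMap k K) z₀ = u s := by
    intro s hs
    refine exists_coef fun n => hAk (Or.inl (Or.inl ?_))
    exact Set.mem_biUnion hs ⟨n, rfl⟩
  have hB : ∀ j, ∃ z₀ : LaurentSeries k, coeffMap (algebraMap k K) z₀ =
      u ((minpoly K⟮t⟯ y).coeff j) := by
    intro j
    refine exists_coef fun n => hAk (Or.inl (Or.inr ?_))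
    exact Set.mem_iUnion.mpr ⟨j, ⟨n, rfl⟩⟩
  have hgen : IntermediateField.adjoin K ({t, y} : Set F) = ⊤ := by
    rw [eq_top_iff]
    intro z _
    have h1 : z ∈ (K⟮t⟯⟮y⟯ : IntermediateField K⟮t⟯ F) := by rw [hy]; trivial
    have h2 : z ∈ (K⟮t⟯⟮y⟯ : IntermediateField K⟮t⟯ F).restrictScalars K := h1
    rw [IntermediateField.adjoin_simple_adjoin_simple] at h2
    exact h2
  refine ⟨k, IntermediateField.adjoin k ({t, y} : Set F),
    mkCE u uc _ hS hgen, hk, hkC, isFunctionField_model u uc ht hyint hS hB, ?_⟩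
  intro P hP
  have htE : t ∈ IntermediateField.adjoin k ({t, y} : Set F) :=
    IntermediateField.subset_adjoin _ _ (by simp)
  have ht0 : t ≠ 0 := by
    rintro rfl
    exact ht isAlgebraic_zero
  by_cases h0 : P.ord t = 0
  · have hmem : t ∈ P.toValuationSubring := (mem_iff_ord P ht0).mpr (by omega)
    have hak : value P t ∈ k := hAk (Or.inr ⟨P, hP, rfl⟩)
    let a : k := ⟨_, hak⟩
    let e : IntermediateField.adjoin k ({t, y} : Set F) := ⟨t, htE⟩ - algebraMap k _ a
    have he : (algebraMap (IntermediateField.adjoin k ({t, y} : Set F)) F) e =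
        t - algebraMap K F (value P t) := rfl
    have hne : t - algebraMap K F (value P t) ≠ 0 := by
      intro h
      rw [sub_eq_zero] at h
      exact ht (h ▸ isAlgebraic_algebraMap _)
    refine ⟨e, ?_, ?_⟩
    · intro h
      rw [h, map_zero] at he
      exact hne he.symm
    · change P.ord (algebraMap (IntermediateField.adjoin k ({t, y} : Set F)) F e) ≠ 0
      rw [he]
      have h1 := value_spec P hmem
      rw [val_lt_one_iff] at h1
      exact (h1.resolve_left hne).ne'
  · refine ⟨⟨t, htE⟩, fun h => ht0 (congrArg Subtype.val h), h0⟩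

end Fermat.Agent.TorP4
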