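import Fermat.Agent.TorP4.Gal
import Fermat.Agent.PicFlat.Gal

/-!
# Torsion classes descend
-/

set_option autoImplicit false
set_option linter.unusedSectionVars false
set_option linter.style.haveILetI false

noncomputable section

namespace Fermat.Agent.TorP4

open AlgebraicCurve Fermat.Agent.Curves Fermat.Agent.PicFlat ModularCurve SemilinearAut
open scoped IntermediateField Pointwise

section Leq

variable {K F : Type*} [Field K] [IsAlgClosed K] [Field F] [Algebra K F] [IsFunctionField K F]

/-- linear equivalence -/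
def Leq (D D' : Divisor K F) : Prop := ∃ f : F, f ≠ 0 ∧ divisorOf f = D' - D

theorem div_mul {f g : F} (hf : f ≠ 0) (hg : g ≠ 0) :
    divisorOf (k := K) (f * g) = divisorOf f + divisorOf g := by
  ext P
  rw [Finsupp.add_apply, divisorOf_apply, divisorOf_apply, divisorOf_apply, P.ord_mul hf hg]

theorem div_inv (f : F) : divisorOf (k := K) f⁻¹ = -divisorOf f := by
  ext P
  rw [Finsupp.neg_apply, divisorOf_apply, divisorOf_apply, P.ord_inv]

theorem div_one : divisorOf (k := K) (1 : F) = 0 := by
  ext P
  rw [Finsupp.zero_apply, divisorOf_apply, P.ord_one]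

theorem Leq.refl (D : Divisor K F) : Leq D D := ⟨1, one_ne_zero, by rw [div_one, sub_self]⟩

theorem Leq.symm {D D' : Divisor K F} (h : Leq D D') : Leq D' D := by
  obtain ⟨f, hf, h⟩ := h
  exact ⟨f⁻¹, inv_ne_zero hf, by rw [div_inv, h]; abel⟩

theorem Leq.add {D D' E E' : Divisor K F} (h : Leq D D') (h' : Leq E E') :
    Leq (D + E) (D' + E') := by
  obtain ⟨f, hf, h⟩ := h
  obtain ⟨f', hf', h'⟩ := h'
  exact ⟨f * f', mul_ne_zero hf hf', by rw [div_mul hf hf', h, h']; abel⟩

theorem Leq.neg {D D' : Divisor K F} (h : Leq D D') : Leq (-D) (-D') := by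
  obtain ⟨f, hf, h⟩ := h
  exact ⟨f⁻¹, inv_ne_zero hf, by rw [div_inv, h]; abel⟩

theorem Leq.sub {D D' E E' : Divisor K F} (h : Leq D D') (h' : Leq E E') :
    Leq (D - E) (D' - E') := by
  rw [sub_eq_add_neg, sub_eq_add_neg]
  exact h.add h'.neg

theorem Leq.trans {D D' D'' : Divisor K F} (h : Leq D D') (h' : Leq D' D'') : Leq D D'' := by
  obtain ⟨f, hf, h⟩ := h
  obtain ⟨f', hf', h'⟩ := h'
  exact ⟨f * f', mul_ne_zero hf hf', by rw [div_mul hf hf', h, h']; abel⟩

theorem Leq.of_add_right {D D' E : Divisor K F} (h : Leq (D + E) (D' + E)) : Leq D D' := by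
  have := h.sub (Leq.refl E)
  rwa [add_sub_cancel_right, add_sub_cancel_right] at this

theorem Leq.smul (g : SemilinearAut K F) {D D' : Divisor K F} (h : Leq D D') :
    Leq (g • D) (g • D') := by
  obtain ⟨f, hf, h⟩ := h
  refine ⟨g • f, smul_ne_zero' g hf, ?_⟩
  rw [← smul_divisorOf', h, smul_sub]

theorem Leq.nsmul {D D' : Divisor K F} (h : Leq D D') (n : ℕ) : Leq (n • D) (n • D') := by
  induction n with
  | zero => rw [zero_smul, zero_smul]; exact Leq.refl _
  | succ n ih => rw [succ_nsmul, succ_nsmul]; exact ih.add h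

theorem Leq.degree {D D' : Divisor K F} (h : Leq D D') :
    Divisor.degree D = Divisor.degree D' := by
  obtain ⟨f, hf, h⟩ := h
  have h1 : Divisor.degree (divisorOf (k := K) f) = 0 := degree_divisorOf f
  rw [h, map_sub] at h1
  omega

theorem mk_eq_iff (D D' : Divisor.degZero (K := K) (F := F)) :
    Pic0.mk D = Pic0.mk D' ↔ Leq (D : Divisor K F) D' := by
  unfold Pic0.mk
  rw [QuotientAddGroup.eq, AddSubgroup.mem_addSubgroupOf]
  constructor
  · rintro ⟨f, hf0, hf⟩
    refine ⟨f, hf0, ?_⟩
    ext P
    rw [divisorOf_apply, ← hf P]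
    simp only [AddSubgroup.coe_add, NegMemClass.coe_neg, Finsupp.add_apply, Finsupp.neg_apply,
      Finsupp.sub_apply]
    ring
  · rintro ⟨f, hf0, hf⟩
    refine ⟨f, hf0, fun P => ?_⟩
    have := DFunLike.congr_fun hf P
    rw [divisorOf_apply] at this
    rw [this]
    simp only [AddSubgroup.coe_add, NegMemClass.coe_neg, Finsupp.add_apply, Finsupp.neg_apply,
      Finsupp.sub_apply]
    ring

/-- linearly equivalent divisors have the same `ell` -/
theorem Leq.ell_eq {D D' : Divisor K F} (h : Leq D D') : ell D = ell D' := by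
  obtain ⟨f, hf, h⟩ := h
  have hmem : ∀ x : F, x ∈ riemannRochSpace D' ↔ f * x ∈ riemannRochSpace D := by
    intro x
    rcases eq_or_ne x 0 with rfl | hx
    · rw [mul_zero]; exact ⟨fun _ => Submodule.zero_mem _, fun _ => Submodule.zero_mem _⟩
    rw [mem_iff_of_ne hx, mem_iff_of_ne (mul_ne_zero hf hx)]
    refine forall_congr' fun P => ?_
    have h1 := DFunLike.congr_fun h P
    rw [divisorOf_apply, Finsupp.sub_apply] at h1
    rw [P.ord_mul hf hx]
    constructor <;> intro h2 <;> omega
  let e : riemannRochSpace D' ≃ₗ[K] riemannRochSpace D :=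
    { toFun := fun x => ⟨f * x, (hmem x).mp x.2⟩
      map_add' := fun x y => Subtype.ext (mul_add _ _ _)
      map_smul' := fun a x => Subtype.ext (by
        change f * (a • (x : F)) = a • (f * (x : F))
        rw [mul_smul_comm])
      invFun := fun y => ⟨f⁻¹ * y, (hmem _).mpr (by
        rw [mul_inv_cancel_left₀ hf]; exact y.2)⟩
      left_inv := fun x => Subtype.ext (inv_mul_cancel_left₀ hf _)
      right_inv := fun y => Subtype.ext (mul_inv_cancel_left₀ hf _) }
  exact e.finrank_eq.symm

/-- the canonical representative -/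
structure Can (P₀ : Place K F) (D : Divisor K F) (m : ℤ) (E : Divisor K F) : Prop where
  nonneg : 0 ≤ E
  leq : Leq (D + Finsupp.single P₀ m) E
  min : ell (D + Finsupp.single P₀ (m - 1)) = 0

theorem ell_pos {D E : Divisor K F} (hE : 0 ≤ E) (h : Leq D E) : 1 ≤ ell D := by
  rw [h.ell_eq]
  have h1 : (1 : F) ∈ riemannRochSpace E := by
    rw [mem_iff_of_ne one_ne_zero]
    intro P
    rw [P.ord_one]
    have := hE P
    rw [Finsupp.coe_zero, Pi.zero_apply] at this
    omega
  haveI : Nontrivial (riemannRochSpace E) :=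
    ⟨⟨⟨1, h1⟩, 0, fun h' => one_ne_zero (congrArg Subtype.val h')⟩⟩
  haveI : FiniteDimensional K (riemannRochSpace E) := inferInstance
  exact Module.finrank_pos

theorem exists_can (P₀ : Place K F) (D : Divisor K F) : ∃ m E, Can P₀ D m E := by
  classical
  obtain ⟨g, c, hRR⟩ := exists_RR (k := K) (F := F)
  set L : ℤ → Divisor K F := fun k => D + Finsupp.single P₀ k with hL
  have hdeg : ∀ k, Divisor.degree (L k) = Divisor.degree D + k := fun k => by
    rw [hL]; simp only; rw [map_add, degree_single_one]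
  have hex : ∃ k : ℤ, 1 ≤ PicFlat.ell (L k) := by
    refine ⟨g - Divisor.degree D, ?_⟩
    have h1 := hRR.le (L (g - Divisor.degree D))
    rw [hdeg] at h1
    omega
  have hbd : ∀ k : ℤ, 1 ≤ PicFlat.ell (L k) → -Divisor.degree D ≤ k := by
    intro k hk
    by_contra hcon
    push Not at hcon
    have : PicFlat.ell (L k) = 0 := ell_eq_zero (by rw [hdeg]; omega)
    omega
  obtain ⟨k, hk1, hkmin⟩ := Int.exists_least_of_bdd ⟨_, hbd⟩ hex
  have hpred : PicFlat.ell (L (k - 1)) = 0 := by
    by_contra h
    have := hkmin (k - 1) (by omega)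
    omega
  haveI : FiniteDimensional K (riemannRochSpace (L k)) := inferInstance
  haveI : Nontrivial (riemannRochSpace (L k)) := Module.nontrivial_of_finrank_pos
    (R := K) (by unfold PicFlat.ell at hk1; omega)
  obtain ⟨⟨f, hf⟩, hf0⟩ := exists_ne (0 : riemannRochSpace (L k))
  have hf0' : f ≠ 0 := fun h' => hf0 (Subtype.ext h')
  refine ⟨k, divisorOf f + L k, (mem_iff_div hf0').mp hf, ⟨f, hf0', ?_⟩, hpred⟩
  rw [hL]; simp only
  abel

theorem Can.unique {P₀ : Place K F} {D D' : Divisor K F} {m m' : ℤ} {E E' : Divisor K F}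
    (h : Can P₀ D m E) (h' : Can P₀ D' m' E') (hD : Leq D D') : m = m' ∧ E = E' := by
  have key : ∀ {D D' : Divisor K F} {m m' : ℤ} {E E' : Divisor K F}, Can P₀ D m E →
      Can P₀ D' m' E' → Leq D D' → m ≤ m' := by
    intro D D' m m' E E' h h' hD
    by_contra hcon
    push Not at hcon
    have h1 : PicFlat.ell (D + Finsupp.single P₀ m') = 0 := by
      have h2 : PicFlat.ell (D + Finsupp.single P₀ m') ≤
          PicFlat.ell (D + Finsupp.single P₀ (m - 1)) := by
        refine ell_mono (add_le_add_right ?_ _)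
        rw [Finsupp.single_le_single]
        omega
      rw [h.min] at h2
      omega
    have h2 := ell_pos h'.nonneg ((hD.add (Leq.refl (Finsupp.single P₀ m'))).trans h'.leq)
    omega
  have hm : m = m' := le_antisymm (key h h' hD) (key h' h hD.symm)
  refine ⟨hm, ?_⟩
  subst hm
  set L := D + Finsupp.single P₀ m with hL
  have hLk : L = (D + Finsupp.single P₀ (m - 1)) + Finsupp.single P₀ 1 := by
    rw [hL, add_assoc, ← Finsupp.single_add, sub_add_cancel]
  have hk : PicFlat.ell L = 1 := by
    have h1 := ell_add_le (D + Finsupp.single P₀ (m - 1)) (Finsupp.single P₀ 1) (by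
      rw [Finsupp.single_nonneg]; norm_num)
    rw [← hLk, degree_single_one, h.min] at h1
    have h2 := ell_pos h.nonneg h.leq
    rw [← hL] at h2
    push_cast at h1
    omega
  haveI : FiniteDimensional K (riemannRochSpace L) := inferInstance
  obtain ⟨⟨f₀, hf₀⟩, hf₀0, hspan⟩ := finrank_eq_one_iff'.mp hk
  have hf0 : f₀ ≠ 0 := fun h => hf₀0 (Subtype.ext h)
  have key2 : ∀ E : Divisor K F, 0 ≤ E → Leq L E → E = divisorOf f₀ + L := by
    intro E hE hLE
    obtain ⟨f, hf, hfd⟩ := hLE
    have h1 : f ∈ riemannRochSpace L := by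
      rw [mem_iff_div hf, hfd, sub_add_cancel]
      exact hE
    obtain ⟨a, ha⟩ := hspan ⟨f, h1⟩
    have ha' : a • f₀ = f := congrArg Subtype.val ha
    have ha0 : a ≠ 0 := by
      rintro rfl
      rw [zero_smul] at ha'
      exact hf ha'.symm
    have h2 : divisorOf (k := K) f = divisorOf f₀ := by
      ext P
      rw [divisorOf_apply, divisorOf_apply, ← ha', Algebra.smul_def,
        P.ord_mul (by rwa [Ne, map_eq_zero]) hf0, ord_algebraMap, zero_add]
    rw [← h2, hfd, sub_add_cancel]
  rw [key2 E h.nonneg h.leq, key2 E' h'.nonneg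
    ((hD.add (Leq.refl (Finsupp.single P₀ m))).trans h'.leq)]

theorem Can.smul {P₀ : Place K F} {D : Divisor K F} {m : ℤ} {E : Divisor K F}
    (h : Can P₀ D m E) (g : SemilinearAut K F) (hg : g • P₀ = P₀) :
    Can P₀ (g • D) m (g • E) := by
  obtain ⟨m', E', h'⟩ := exists_can P₀ (g • D)
  have h1 : Leq (g • D + Finsupp.single P₀ m) (g • E) := by
    have := h.leq.smul g
    rwa [smul_add, SemilinearAut.smul_single, hg] at this
  have h2 : Leq (D + Finsupp.single P₀ m') (g⁻¹ • E') := by
    have := h'.leq.smul g⁻¹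
    rw [smul_add, inv_smul_smul, SemilinearAut.smul_single] at this
    rwa [show g⁻¹ • P₀ = P₀ by conv_lhs => rw [← hg]
                               rw [inv_smul_smul]] at this
  have h3 : m = m' := by
    rcases lt_trichotomy m m' with hlt | heq | hlt
    · exfalso
      have h4 := ell_pos (nonneg_smul g h.nonneg) h1
      have h5 : PicFlat.ell (g • D + Finsupp.single P₀ m) ≤
          PicFlat.ell (g • D + Finsupp.single P₀ (m' - 1)) := by
        refine ell_mono (add_le_add_right ?_ _)
        rw [Finsupp.single_le_single]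
        omega
      rw [h'.min] at h5
      omega
    · exact heq
    · exfalso
      have h4 := ell_pos (nonneg_smul g⁻¹ h'.nonneg) h2
      have h5 : PicFlat.ell (D + Finsupp.single P₀ m') ≤
          PicFlat.ell (D + Finsupp.single P₀ (m - 1)) := by
        refine ell_mono (add_le_add_right ?_ _)
        rw [Finsupp.single_le_single]
        omega
      rw [h.min] at h5
      omega
  subst h3
  exact ⟨nonneg_smul g h.nonneg, h1, h'.min⟩

end Leq

variable {k K E F : Type*} [Field k] [Field K] [Algebra k K] [Field E] [Algebra k E]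
  [Field F] [Algebra K F]

namespace CE

variable (C : CE k K E F)
variable [IsAlgClosed k] [IsAlgClosed K] [CharZero k] [IsFunctionField k E] [IsFunctionField K F]

/-- places with finite orbit descend -/
theorem mem_range_con_of_finite {P : Place K F}
    (h : (Set.range fun g : C.GG => (g : SemilinearAut K F) • P).Finite) :
    P ∈ Set.range C.con := by
  obtain ⟨t, ht, -⟩ := IsFunctionField.exists_transcendental (k := k) (F := E)
  have htF := C.tr ht
  have ht0 : t ≠ 0 := by
    rintro rfl
    exact ht isAlgebraic_zero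
  have htF0 : C.ι t ≠ 0 := (map_ne_zero_iff _ C.ι.injective).mpr ht0
  by_cases hP : P.ord (C.ι t) = 0
  · have hmem : ∀ Q : Place K F, Q.ord (C.ι t) = 0 → C.ι t ∈ Q.toValuationSubring := by
      intro Q hQ
      rw [mem_iff_ord _ htF0]
      omega
    have horb : (Set.range fun σ : K ≃ₐ[k] K => σ (value P (C.ι t))).Finite := by
      refine (h.image fun Q => value Q (C.ι t)).subset ?_
      rintro _ ⟨σ, rfl⟩
      obtain ⟨g, hg, hσ, -⟩ := C.exists_gal σ
      refine ⟨g • P, ⟨⟨g, hg⟩, rfl⟩, ?_⟩
      have h1 := value_smul_act g P (hmem P hP)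
      rw [hg.2, hσ] at h1
      exact h1
    obtain ⟨a, ha⟩ := mem_range_of_finite_orbit horb
    have he : t - algebraMap k E a ≠ 0 := by
      intro h0
      rw [sub_eq_zero] at h0
      exact ht (h0 ▸ isAlgebraic_algebraMap a)
    refine C.mem_range_con ⟨t - algebraMap k E a, he, ?_⟩
    have h1 := value_spec P (hmem P hP)
    rw [val_lt_one_iff] at h1
    rw [map_sub, C.ι_const, ha]
    rcases h1 with h1 | h1
    · exfalso
      apply (map_ne_zero_iff _ C.ι.injective).mpr he
      rw [map_sub, C.ι_const, ha, h1]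
    · exact h1.ne'
  · exact C.mem_range_con ⟨t, ht0, hP⟩

/-- classes with finite orbit descend -/
theorem exists_descent {D : Divisor K F} {S : Set (Pic0 K F)} (hS : S.Finite)
    (hD0 : Divisor.degree D = 0)
    (hD : ∀ g ∈ C.GG, ∃ D' : Divisor.degZero (K := K) (F := F), Leq (g • D) (D' : Divisor K F) ∧
      Pic0.mk D' ∈ S) :
    ∃ D₀ : Divisor k E, Divisor.degree D₀ = 0 ∧ Leq D (C.Con D₀) := by
  classical
  obtain ⟨t, ht, -⟩ := IsFunctionField.exists_transcendental (k := k) (F := E)
  obtain ⟨Q₀, -⟩ := exists_ord_pos_of_transcendental (k := k) ht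
  set P₀ := C.con Q₀ with hP₀
  obtain ⟨m, X, hX⟩ := exists_can P₀ D
  have hfix : ∀ g ∈ C.GG, g • P₀ = P₀ := fun g hg => C.smul_con hg Q₀
  -- finiteness of the orbit of `X`
  have horb : (Set.range fun g : C.GG => (g : SemilinearAut K F) • X).Finite := by
    choose f hf hfS using fun g : C.GG => hD g g.2
    refine Set.Finite.of_finite_image (f := fun Y : Divisor K F =>
      if h : ∃ D' : Divisor.degZero (K := K) (F := F), Leq Y (D' + Finsupp.single P₀ m) then
        Pic0.mk h.choose else 0) ?_ ?_
    · refine hS.subset ?_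
      rintro _ ⟨_, ⟨g, rfl⟩, rfl⟩
      have hcan := hX.smul g (hfix g g.2)
      have hex : ∃ D' : Divisor.degZero (K := K) (F := F),
          Leq ((g : SemilinearAut K F) • X) (D' + Finsupp.single P₀ m) :=
        ⟨f g, hcan.leq.symm.trans ((hf g).add (Leq.refl _))⟩
      simp only
      rw [dif_pos hex]
      have h1 := hex.choose_spec
      have h2 : Leq (hex.choose : Divisor K F) (f g) := by
        refine Leq.of_add_right (E := Finsupp.single P₀ m) ?_
        exact h1.symm.trans (hcan.leq.symm.trans ((hf g).add (Leq.refl _)))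
      rw [(mk_eq_iff _ _).mpr h2]
      exact hfS g
    · rintro _ ⟨g, rfl⟩ _ ⟨g', rfl⟩ heq
      have hcan := hX.smul g (hfix g g.2)
      have hcan' := hX.smul g' (hfix g' g'.2)
      have hex : ∃ D' : Divisor.degZero (K := K) (F := F),
          Leq ((g : SemilinearAut K F) • X) (D' + Finsupp.single P₀ m) :=
        ⟨f g, hcan.leq.symm.trans ((hf g).add (Leq.refl _))⟩
      have hex' : ∃ D' : Divisor.degZero (K := K) (F := F),
          Leq ((g' : SemilinearAut K F) • X) (D' + Finsupp.single P₀ m) :=
        ⟨f g', hcan'.leq.symm.trans ((hf g').add (Leq.refl _))⟩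
      simp only at heq
      rw [dif_pos hex, dif_pos hex'] at heq
      have h1 : Leq ((g : SemilinearAut K F) • X) ((g' : SemilinearAut K F) • X) :=
        hex.choose_spec.trans ((((mk_eq_iff _ _).mp heq).add (Leq.refl _)).trans
          hex'.choose_spec.symm)
      have h2 : Leq ((g : SemilinearAut K F) • D) ((g' : SemilinearAut K F) • D) :=
        Leq.of_add_right (hcan.leq.trans (h1.trans hcan'.leq.symm))
      exact (hcan.unique hcan' h2).2
  -- the places in the support have finite orbits
  have hsupp : ∀ P, X P ≠ 0 → P ∈ Set.range C.con := by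
    intro P hP
    refine C.mem_range_con_of_finite ?_
    have h1 : (⋃ Y ∈ (Set.range fun g : C.GG => (g : SemilinearAut K F) • X),
        ((Y.support : Set (Place K F)))).Finite :=
      horb.biUnion fun Y _ => Y.support.finite_toSet
    refine h1.subset ?_
    rintro _ ⟨g, rfl⟩
    refine Set.mem_biUnion ⟨g, rfl⟩ ?_
    rw [Finset.mem_coe, Finsupp.mem_support_iff, SemilinearAut.divisor_smul_apply]
    simp only
    rw [inv_smul_smul]
    exact hP
  obtain ⟨X₀, hX₀⟩ := C.mem_range_Con hsupp
  have hleq : Leq D (C.Con (X₀ - Finsupp.single Q₀ m)) := by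
    rw [map_sub, hX₀, C.Con_single]
    have := hX.leq.sub (Leq.refl (Finsupp.single P₀ m))
    rwa [add_sub_cancel_right] at this
  refine ⟨X₀ - Finsupp.single Q₀ m, ?_, hleq⟩
  rw [← C.degree_Con, ← hleq.degree, hD0]

end CE

end Fermat.Agent.TorP4
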